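/-
S52 / leaf E6 (I-b), part 1 (helper58): alternating binomial sums.
Mathlib-only.  Finite differences of polynomial sequences vanish, and a sequence
all of whose `(d+1)`-st differences vanish and whose first `d+1` values vanish is zero.
-/
import Mathlib

set_option autoImplicit false

namespace Fermat.Agent.S52.H58

open Polynomial Finset

/-- The alternating binomial coefficients `(-1)^(m-k) * C(m,k)`. -/
def altCoef (m k : ℕ) : ℤ := (-1 : ℤ) ^ (m - k) * (m.choose k : ℤ)

theorem altCoef_self (m : ℕ) : altCoef m m = 1 := by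
  simp [altCoef]

theorem abs_altCoef (m k : ℕ) : |altCoef m k| = (m.choose k : ℤ) := by
  unfold altCoef
  rw [abs_mul, abs_pow, abs_neg, abs_one, one_pow, one_mul, Nat.abs_cast]

theorem sum_abs_altCoef (m : ℕ) : ∑ k ∈ range (m + 1), |altCoef m k| = 2 ^ m := by
  simp_rw [abs_altCoef]
  have := Nat.sum_range_choose m
  exact_mod_cast this

/-- Alternating binomial sums kill polynomial values along unit steps. -/
theorem altSum_eval_eq_zero {R : Type*} [CommRing R] (p : R[X]) {m : ℕ} (hp : p.natDegree < m)
    (x : R) : ∑ k ∈ range (m + 1), (altCoef m k : R) * p.eval (x + k) = 0 := by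
  have h1 := congrFun (Polynomial.fwdDiff_iter_eq_zero_of_degree_lt hp) x
  rw [fwdDiff_iter_eq_sum_shift] at h1
  simp only [Pi.zero_apply] at h1
  rw [← h1]
  refine Finset.sum_congr rfl fun k _ => ?_
  simp [altCoef, zsmul_eq_mul]

/-- Alternating binomial sums kill polynomial values along an arbitrary arithmetic
progression `x0 + j * D`. -/
theorem altSum_eval_ap_eq_zero {R : Type*} [CommRing R] (p : R[X]) {m : ℕ} (hp : p.natDegree < m)
    (x0 D : R) (j : ℕ) :
    ∑ k ∈ range (m + 1), (altCoef m k : R) * p.eval (x0 + ((j + k : ℕ) : R) * D) = 0 := by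
  set q : R[X] := p.comp (C x0 + C D * X) with hq
  have hqdeg : q.natDegree < m := by
    refine lt_of_le_of_lt ?_ hp
    refine (natDegree_comp_le).trans ?_
    have h1 : (C x0 + C D * X : R[X]).natDegree ≤ 1 := by
      refine (natDegree_add_le _ _).trans ?_
      rw [max_le_iff]
      exact ⟨by simp, (natDegree_C_mul_le _ _).trans natDegree_X_le⟩
    calc p.natDegree * (C x0 + C D * X : R[X]).natDegree ≤ p.natDegree * 1 :=
          Nat.mul_le_mul_left _ h1
      _ = p.natDegree := mul_one _
  have h := altSum_eval_eq_zero q hqdeg (j : R)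
  rw [← h]
  refine Finset.sum_congr rfl fun k _ => ?_
  rw [hq, eval_comp]
  simp only [eval_add, eval_C, eval_mul, eval_X, Nat.cast_add]
  ring_nf

/-- A sequence whose first `m` values vanish and all of whose `m`-th alternating sums vanish
(inside `[0, L)`) vanishes on `[0, L)`. -/
theorem eq_zero_of_altSum_eq_zero {R : Type*} [CommRing R] (m L : ℕ) (u : ℕ → R)
    (h0 : ∀ j, j < m → u j = 0)
    (hrec : ∀ j, j + m < L → ∑ k ∈ range (m + 1), (altCoef m k : R) * u (j + k) = 0) :
    ∀ j, j < L → u j = 0 := by
  intro j
  induction j using Nat.strong_induction_on with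
  | _ j ih =>
    intro hj
    rcases lt_or_ge j m with hjm | hjm
    · exact h0 j hjm
    · obtain ⟨i, rfl⟩ := Nat.exists_eq_add_of_le' hjm
      have h := hrec i hj
      rw [Finset.sum_range_succ, altCoef_self] at h
      have hz : ∑ k ∈ range m, (altCoef m k : R) * u (i + k) = 0 := by
        refine Finset.sum_eq_zero fun k hk => ?_
        have hk' : k < m := Finset.mem_range.mp hk
        rw [ih (i + k) (by omega) (by omega), mul_zero]
      rw [hz, zero_add] at h
      simpa using h

end Fermat.Agent.S52.H58
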