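/-
S52 / leaf E6 (I-b), part 7 (helper58): integer sequences close to a polynomial along an
arithmetic progression are rational polynomial sequences.  Mathlib-only.
-/
import Fermat.Agent.S52.H58.HRDiff

set_option autoImplicit false

namespace Fermat.Agent.S52.H58

open Polynomial Finset

theorem sum_norm_altCoef (m : ℕ) :
    ∑ k ∈ range (m + 1), ‖((altCoef m k : ℤ) : ℂ)‖ = 2 ^ m := by
  have h : ∀ k ∈ range (m + 1), ‖((altCoef m k : ℤ) : ℂ)‖ = ((|altCoef m k| : ℤ) : ℝ) := by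
    intro k _
    rw [Complex.norm_intCast, Int.cast_abs]
  rw [Finset.sum_congr rfl h, ← Int.cast_sum, sum_abs_altCoef]
  norm_num

/-- If the integers `Y j` are within `ε < 2^-(d+1)` of the values of a complex polynomial of
degree `≤ d` along an arithmetic progression, their `(d+1)`-st alternating sums vanish. -/
theorem altSum_int_eq_zero (d : ℕ) (P : ℂ[X]) (hP : P.natDegree ≤ d) (x0 D : ℤ) (L : ℕ)
    (Y : ℕ → ℤ) (ε : ℝ) (hε : ε * 2 ^ (d + 1) < 1)
    (hY : ∀ j, j < L → ‖(Y j : ℂ) - P.eval ((x0 : ℂ) + (j : ℂ) * (D : ℂ))‖ ≤ ε) :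
    ∀ j, j + (d + 1) < L → ∑ k ∈ range (d + 1 + 1), altCoef (d + 1) k * Y (j + k) = 0 := by
  intro j hj
  set T : ℤ := ∑ k ∈ range (d + 1 + 1), altCoef (d + 1) k * Y (j + k) with hT
  have hz := altSum_eval_ap_eq_zero P (m := d + 1) (Nat.lt_succ_of_le hP) (x0 : ℂ) (D : ℂ) j
  have hTC : (T : ℂ) = ∑ k ∈ range (d + 1 + 1), ((altCoef (d + 1) k : ℤ) : ℂ) *
      ((Y (j + k) : ℂ) - P.eval ((x0 : ℂ) + ((j + k : ℕ) : ℂ) * (D : ℂ))) := by
    simp only [mul_sub, Finset.sum_sub_distrib]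
    rw [hz, sub_zero, hT]
    push_cast
    rfl
  have hnorm : ‖(T : ℂ)‖ ≤ 2 ^ (d + 1) * ε := by
    rw [hTC, ← sum_norm_altCoef, Finset.sum_mul]
    refine (norm_sum_le _ _).trans (Finset.sum_le_sum fun k hk => ?_)
    rw [norm_mul]
    refine mul_le_mul_of_nonneg_left ?_ (norm_nonneg _)
    have hk' : k < d + 1 + 1 := Finset.mem_range.mp hk
    exact hY (j + k) (by omega)
  have hlt : |(T : ℝ)| < 1 := by
    rw [← Complex.norm_intCast]
    calc ‖(T : ℂ)‖ ≤ 2 ^ (d + 1) * ε := hnorm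
      _ = ε * 2 ^ (d + 1) := mul_comm _ _
      _ < 1 := hε
  have hlt' : |T| < 1 := by exact_mod_cast hlt
  exact Int.abs_lt_one_iff.mp hlt'

/-- An integer sequence whose `(d+1)`-st alternating sums vanish on `[0, L)` is given on
`[0, L)` by a rational polynomial of degree `≤ d` in the nodes `x0 + j * D`. -/
theorem exists_interpolant (d L : ℕ) (x0 D : ℤ) (hD : D ≠ 0) (Y : ℕ → ℤ)
    (hrec : ∀ j, j + (d + 1) < L →
      ∑ k ∈ range (d + 1 + 1), altCoef (d + 1) k * Y (j + k) = 0) :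
    ∃ Q : ℚ[X], Q.natDegree ≤ d ∧
      ∀ j, j < L → Q.eval ((x0 : ℚ) + (j : ℚ) * (D : ℚ)) = (Y j : ℚ) := by
  set v : ℕ → ℚ := fun i => (x0 : ℚ) + (i : ℚ) * (D : ℚ) with hv
  have hDq : (D : ℚ) ≠ 0 := by exact_mod_cast hD
  have hvinj : Function.Injective v := by
    intro i j hij
    simp only [hv, add_right_inj] at hij
    have := mul_right_cancel₀ hDq hij
    exact_mod_cast this
  set Q : ℚ[X] := Lagrange.interpolate (range (d + 1)) v (fun i => (Y i : ℚ)) with hQ
  have hQdeg : Q.natDegree ≤ d := by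
    refine natDegree_le_of_degree_le ?_
    have h := Lagrange.degree_interpolate_le (s := range (d + 1)) (v := v)
      (fun i => (Y i : ℚ)) hvinj.injOn
    rw [Finset.card_range, Nat.add_sub_cancel] at h
    exact h
  refine ⟨Q, hQdeg, ?_⟩
  set u : ℕ → ℚ := fun j => (Y j : ℚ) - Q.eval (v j) with hu
  have h0 : ∀ j, j < d + 1 → u j = 0 := by
    intro j hj
    simp only [hu]
    rw [hQ, Lagrange.eval_interpolate_at_node (fun i => (Y i : ℚ)) hvinj.injOn
      (Finset.mem_range.mpr hj), sub_self]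
  have hrec' : ∀ j, j + (d + 1) < L →
      ∑ k ∈ range (d + 1 + 1), ((altCoef (d + 1) k : ℤ) : ℚ) * u (j + k) = 0 := by
    intro j hj
    have hz := altSum_eval_ap_eq_zero Q (m := d + 1) (Nat.lt_succ_of_le hQdeg) (x0 : ℚ) (D : ℚ) j
    have h1 := congrArg (Int.cast : ℤ → ℚ) (hrec j hj)
    push_cast at h1
    simp only [hu, mul_sub, Finset.sum_sub_distrib]
    rw [h1, zero_sub, neg_eq_zero]
    exact hz
  intro j hj
  have := eq_zero_of_altSum_eq_zero (d + 1) L u h0 hrec' j hj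
  simp only [hu] at this
  rw [sub_eq_zero] at this
  exact this.symm

/-- A rational polynomial of degree `< L` vanishing at `L` points of an arithmetic progression
is zero. -/
theorem eq_zero_of_eval_ap_eq_zero (Φ : ℚ[X]) (L : ℕ) (hΦ : Φ.natDegree < L) (x0 D : ℤ)
    (hD : D ≠ 0) (h : ∀ j, j < L → Φ.eval ((x0 : ℚ) + (j : ℚ) * (D : ℚ)) = 0) : Φ = 0 := by
  have hDq : (D : ℚ) ≠ 0 := by exact_mod_cast hD
  have hvinj : Function.Injective (fun i : ℕ => (x0 : ℚ) + (i : ℚ) * (D : ℚ)) := by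
    intro i j hij
    simp only [add_right_inj] at hij
    have := mul_right_cancel₀ hDq hij
    exact_mod_cast this
  refine Polynomial.eq_zero_of_degree_lt_of_eval_index_eq_zero (range L) hvinj.injOn ?_
    (fun i hi => h i (Finset.mem_range.mp hi))
  rw [Finset.card_range]
  by_cases h0 : Φ = 0
  · rw [h0, degree_zero]
    exact WithBot.bot_lt_coe _
  · rw [degree_eq_natDegree h0]
    exact_mod_cast hΦ

end Fermat.Agent.S52.H58
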