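/-
S52 / leaf E6 (I-b), part 8 (helper58): elementary Hilbert irreducibility, root version.
Mathlib-only.

`exists_no_int_root`: let `F(n, y) = y^r + ∑_{j<r} c_j(n) y^j` with `c_j ∈ ℤ[X]`,
`deg c_j ≤ d (r - j)`, whose leading form has only simple complex roots.  If `F(X, Q(X)) ≠ 0`
for every `Q ∈ ℚ[X]` of degree `≤ d`, then every arithmetic progression contains arbitrarily
large `n` such that `F(n, ·)` has no integer root.
-/
import Fermat.Agent.S52.H58.HRBranch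
import Fermat.Agent.S52.H58.HRInterp

set_option autoImplicit false

namespace Fermat.Agent.S52.H58

open Polynomial Finset

theorem exists_no_int_root (r d : ℕ) (c : ℕ → ℤ[X])
    (hdeg : ∀ j, j < r → (c j).natDegree ≤ d * (r - j))
    (hsep : ∀ Y : ℂ, (leadForm r d fun j => (c j).map (Int.castRingHom ℂ)).eval Y = 0 →
      (derivative (leadForm r d fun j => (c j).map (Int.castRingHom ℂ))).eval Y ≠ 0)
    (hnoroot : ∀ Q : ℚ[X], Q.natDegree ≤ d →
      Q ^ r + ∑ j ∈ range r, (c j).map (Int.castRingHom ℚ) * Q ^ j ≠ 0)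
    (M : ℕ) (hM : 0 < M) (n0 B : ℤ) :
    ∃ n : ℤ, B ≤ n ∧ n ≡ n0 [ZMOD (M : ℤ)] ∧
      ∀ y : ℤ, y ^ r + ∑ j ∈ range r, (c j).eval n * y ^ j ≠ 0 := by
  classical
  by_contra hcon
  have hall : ∀ n : ℤ, B ≤ n → n ≡ n0 [ZMOD (M : ℤ)] →
      ∃ y : ℤ, y ^ r + ∑ j ∈ range r, (c j).eval n * y ^ j = 0 := by
    intro n hn hmod
    by_contra h
    exact hcon ⟨n, hn, hmod, fun y hy => h ⟨y, hy⟩⟩
  obtain ⟨S, hS, C, n1, hC, hn1, hbr⟩ := exists_branches r d
    (fun j => (c j).map (Int.castRingHom ℂ))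
    (fun j hj => (natDegree_map_le).trans (hdeg j hj)) hsep
  -- a large starting point in the progression
  obtain ⟨t, ht⟩ := exists_nat_ge (max (B : ℝ) (max n1 (C * 2 ^ (d + 1) + 1)) + |(n0 : ℝ)|)
  set N1 : ℤ := n0 + (M : ℤ) * (t : ℤ) with hN1
  have hN1real : max (B : ℝ) (max n1 (C * 2 ^ (d + 1) + 1)) ≤ (N1 : ℝ) := by
    have hM1 : (1 : ℝ) ≤ (M : ℝ) := by exact_mod_cast hM
    have ht0 : (0 : ℝ) ≤ (t : ℝ) := Nat.cast_nonneg t
    have h1 : (t : ℝ) ≤ (M : ℝ) * (t : ℝ) := by nlinarith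
    have h2 : -|(n0 : ℝ)| ≤ (n0 : ℝ) := neg_abs_le _
    rw [hN1]
    push_cast
    linarith
  have hN1B : B ≤ N1 := by
    have : (B : ℝ) ≤ (N1 : ℝ) := (le_max_left _ _).trans hN1real
    exact_mod_cast this
  have hN1n1 : n1 ≤ (N1 : ℝ) := ((le_max_left _ _).trans (le_max_right _ _)).trans hN1real
  have hN1C : C * 2 ^ (d + 1) + 1 ≤ (N1 : ℝ) :=
    ((le_max_right _ _).trans (le_max_right _ _)).trans hN1real
  have hN1pos : (0 : ℝ) < (N1 : ℝ) := by
    have : (0 : ℝ) < C * 2 ^ (d + 1) + 1 := by positivity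
    linarith
  -- the progression
  set nk : ℕ → ℤ := fun k => N1 + (k : ℤ) * (M : ℤ) with hnk
  have hN1nk : ∀ k, N1 ≤ nk k := by
    intro k
    simp only [hnk]
    have : (0 : ℤ) ≤ (k : ℤ) * (M : ℤ) := by positivity
    linarith
  have hnkmod : ∀ k, nk k ≡ n0 [ZMOD (M : ℤ)] := by
    intro k
    rw [Int.modEq_iff_dvd]
    refine ⟨-((t : ℤ) + (k : ℤ)), ?_⟩
    simp only [hnk, hN1]
    ring
  choose yk hyk using fun k => hall (nk k) (hN1B.trans (hN1nk k)) (hnkmod k)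
  have hbrk : ∀ k : ℕ, ∃ P ∈ S,
      ‖((yk k : ℤ) : ℂ) - P.eval ((nk k : ℤ) : ℂ)‖ ≤ C / ((nk k : ℤ) : ℝ) := by
    intro k
    have hge : n1 ≤ ((nk k : ℤ) : ℝ) := by
      have : (N1 : ℝ) ≤ ((nk k : ℤ) : ℝ) := by exact_mod_cast hN1nk k
      linarith
    have hF : ((yk k : ℤ) : ℂ) ^ r + ∑ j ∈ range r,
        ((c j).map (Int.castRingHom ℂ)).eval ((((nk k : ℤ) : ℝ)) : ℂ) * ((yk k : ℤ) : ℂ) ^ j
          = 0 := by
      have h := congrArg (Int.cast : ℤ → ℂ) (hyk k)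
      push_cast at h
      simp only [Complex.ofReal_intCast, eval_intCast_map, eq_intCast]
      exact h
    obtain ⟨P, hP, hclose⟩ := hbr _ _ hge hF
    refine ⟨P, hP, ?_⟩
    simpa only [Complex.ofReal_intCast] using hclose
  choose Pk hPkS hPk using hbrk
  -- colour by branch and extract a monochromatic progression
  let col : ℕ → S := fun k => ⟨Pk k, hPkS k⟩
  set L : ℕ := d * r + d + 2 with hL
  obtain ⟨a, ha, b, Pstar, hmono⟩ :=
    Combinatorics.exists_mono_homothetic_copy (Finset.range L) col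
  set x0 : ℤ := N1 + (b : ℤ) * (M : ℤ) with hx0
  set D : ℤ := (a : ℤ) * (M : ℤ) with hDdef
  have hD : D ≠ 0 := by
    have h1 : (0 : ℤ) < (a : ℤ) := by exact_mod_cast ha
    have h2 : (0 : ℤ) < (M : ℤ) := by exact_mod_cast hM
    exact (mul_pos h1 h2).ne'
  have hDnonneg : (0 : ℤ) ≤ D := by positivity
  have hnkj : ∀ j : ℕ, nk (a * j + b) = x0 + (j : ℤ) * D := by
    intro j
    simp only [hnk, hx0, hDdef]
    push_cast
    ring
  have hN1x : ∀ j : ℕ, N1 ≤ x0 + (j : ℤ) * D := fun j => (hnkj j) ▸ hN1nk (a * j + b)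
  set Yj : ℕ → ℤ := fun j => yk (a * j + b) with hYj
  set ε : ℝ := C / (N1 : ℝ) with hεdef
  have hε : ε * 2 ^ (d + 1) < 1 := by
    rw [hεdef, div_mul_eq_mul_div, div_lt_one hN1pos]
    linarith
  have hYclose : ∀ j, j < L →
      ‖(Yj j : ℂ) - (Pstar : ℂ[X]).eval ((x0 : ℂ) + (j : ℂ) * (D : ℂ))‖ ≤ ε := by
    intro j hj
    have hcol := hmono j (Finset.mem_range.mpr hj)
    have hP : Pk (a * j + b) = (Pstar : ℂ[X]) := by
      have := congrArg Subtype.val hcol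
      simpa [col, smul_eq_mul] using this
    have h1 := hPk (a * j + b)
    rw [hP, hnkj j] at h1
    have h2 : ‖(Yj j : ℂ) - (Pstar : ℂ[X]).eval ((x0 : ℂ) + (j : ℂ) * (D : ℂ))‖
        ≤ C / ((x0 + (j : ℤ) * D : ℤ) : ℝ) := by
      simp only [hYj]
      push_cast at h1 ⊢
      exact h1
    refine h2.trans ?_
    have h3 : (N1 : ℝ) ≤ ((x0 + (j : ℤ) * D : ℤ) : ℝ) := by exact_mod_cast hN1x j
    exact div_le_div_of_nonneg_left hC.le hN1pos h3
  have hrec := altSum_int_eq_zero d (Pstar : ℂ[X]) (hS _ Pstar.2) x0 D L Yj ε hε hYclose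
  obtain ⟨Q, hQdeg, hQ⟩ := exists_interpolant d L x0 D hD Yj hrec
  set Φ : ℚ[X] := Q ^ r + ∑ j ∈ range r, (c j).map (Int.castRingHom ℚ) * Q ^ j with hΦ
  have hΦdeg : Φ.natDegree ≤ d * r := by
    refine (natDegree_add_le _ _).trans (max_le ?_ ?_)
    · exact (natDegree_pow_le_of_le r hQdeg).trans (le_of_eq (Nat.mul_comm r d))
    · refine natDegree_sum_le_of_forall_le _ _ fun j hj => ?_
      have hj' : j < r := Finset.mem_range.mp hj
      refine (natDegree_mul_le_of_le ((natDegree_map_le).trans (hdeg j hj'))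
        (natDegree_pow_le_of_le j hQdeg)).trans (le_of_eq ?_)
      calc d * (r - j) + j * d = d * (r - j + j) := by ring
        _ = d * r := by rw [Nat.sub_add_cancel hj'.le]
  have hΦzero : ∀ j, j < L → Φ.eval ((x0 : ℚ) + (j : ℚ) * (D : ℚ)) = 0 := by
    intro j hj
    have hcast : ∀ i, ((c i).map (Int.castRingHom ℚ)).eval ((x0 : ℚ) + (j : ℚ) * (D : ℚ))
        = (((c i).eval (x0 + (j : ℤ) * D) : ℤ) : ℚ) := by
      intro i
      have := eval_intCast_map (Int.castRingHom ℚ) (c i) (x0 + (j : ℤ) * D)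
      push_cast at this
      simpa using this
    have h := congrArg (Int.cast : ℤ → ℚ) (hyk (a * j + b))
    rw [hnkj j] at h
    push_cast at h
    rw [hΦ]
    simp only [eval_add, eval_pow, eval_finsetSum, eval_mul, hcast]
    rw [hQ j hj]
    simp only [hYj]
    exact h
  have hzero : Φ = 0 := eq_zero_of_eval_ap_eq_zero Φ L (by omega) x0 D hD hΦzero
  exact hnoroot Q hQdeg hzero

end Fermat.Agent.S52.H58
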