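/-
S52 / leaf E6 (I-b), part 9 (helper58): the quartic corollary used by S52.
`F(n, y) = y^4 + 18 a(n) y^2 + 108 b(n) y - 27 a(n)^2` with `deg a ≤ 20`, `deg b ≤ 30`.
-/
import Fermat.Agent.S52.H58.HRMain

set_option autoImplicit false

namespace Fermat.Agent.S52.H58

open Polynomial Finset

/-- The coefficient family of the quartic `y^4 + 18 a y^2 + 108 b y - 27 a^2`. -/
noncomputable def quarticCoef (a b : ℤ[X]) : ℕ → ℤ[X] := fun j =>
  if j = 0 then -27 * a ^ 2 else if j = 1 then 108 * b else if j = 2 then 18 * a else 0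

theorem quarticCoef_zero (a b : ℤ[X]) : quarticCoef a b 0 = -27 * a ^ 2 := by simp [quarticCoef]
theorem quarticCoef_one (a b : ℤ[X]) : quarticCoef a b 1 = 108 * b := by simp [quarticCoef]
theorem quarticCoef_two (a b : ℤ[X]) : quarticCoef a b 2 = 18 * a := by simp [quarticCoef]
theorem quarticCoef_three (a b : ℤ[X]) : quarticCoef a b 3 = 0 := by simp [quarticCoef]

theorem sum_range_four {R : Type*} [AddCommMonoid R] (f : ℕ → R) :
    ∑ j ∈ range 4, f j = f 0 + f 1 + f 2 + f 3 := by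
  simp [Finset.sum_range_succ]

/-- The two identities behind "simple roots of the leading form". -/
theorem quartic_no_double_root (A Bc Y : ℂ) (hdisc : 4 * A ^ 3 + 27 * Bc ^ 2 ≠ 0)
    (hF : Y ^ 4 + 18 * A * Y ^ 2 + 108 * Bc * Y - 27 * A ^ 2 = 0) :
    4 * Y ^ 3 + 36 * A * Y + 108 * Bc ≠ 0 := by
  intro hG
  have hz2 : (Y ^ 2 + 3 * A) ^ 2 = 0 := by
    linear_combination (1 / 3 : ℂ) * Y * hG - (1 / 3 : ℂ) * hF
  have hz : Y ^ 2 + 3 * A = 0 := by simpa using hz2
  have h432 : 432 * (4 * A ^ 3 + 27 * Bc ^ 2) = 0 := by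
    linear_combination (4 * Y ^ 3 + 36 * A * Y + 108 * Bc) * hG
      - 8 * (Y ^ 2 + 3 * A) ^ 2 * hz - 8 * (Y ^ 2 + 9 * A) * hF
  rcases mul_eq_zero.mp h432 with h | h
  · norm_num at h
  · exact hdisc h

theorem exists_no_int_root_quartic (a b : ℤ[X]) (ha : a.natDegree ≤ 20) (hb : b.natDegree ≤ 30)
    (hdisc : 4 * (a.coeff 20) ^ 3 + 27 * (b.coeff 30) ^ 2 ≠ 0)
    (hnoroot : ∀ Q : ℚ[X], Q.natDegree ≤ 10 →
      Q ^ 4 + 18 * a.map (Int.castRingHom ℚ) * Q ^ 2 + 108 * b.map (Int.castRingHom ℚ) * Q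
        - 27 * (a.map (Int.castRingHom ℚ)) ^ 2 ≠ 0)
    (M : ℕ) (hM : 0 < M) (n0 B : ℤ) :
    ∃ n : ℤ, B ≤ n ∧ n ≡ n0 [ZMOD (M : ℤ)] ∧
      ∀ y : ℤ, y ^ 4 + 18 * a.eval n * y ^ 2 + 108 * b.eval n * y - 27 * (a.eval n) ^ 2 ≠ 0 := by
  have hdeg : ∀ j, j < 4 → (quarticCoef a b j).natDegree ≤ 10 * (4 - j) := by
    intro j hj
    interval_cases j
    · rw [quarticCoef_zero]
      have h1 : (a ^ 2).natDegree ≤ 2 * 20 := natDegree_pow_le_of_le 2 ha
      have h2 : ((-27 : ℤ[X]) * a ^ 2).natDegree ≤ 0 + 2 * 20 :=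
        natDegree_mul_le_of_le (by
          rw [show (-27 : ℤ[X]) = C (-27 : ℤ) by simp]
          exact le_of_eq (natDegree_C _)) h1
      exact h2
    · rw [quarticCoef_one]
      have h2 : ((108 : ℤ[X]) * b).natDegree ≤ 0 + 30 :=
        natDegree_mul_le_of_le (by
          rw [show (108 : ℤ[X]) = C (108 : ℤ) by simp]
          exact le_of_eq (natDegree_C _)) hb
      exact h2
    · rw [quarticCoef_two]
      have h2 : ((18 : ℤ[X]) * a).natDegree ≤ 0 + 20 :=
        natDegree_mul_le_of_le (by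
          rw [show (18 : ℤ[X]) = C (18 : ℤ) by simp]
          exact le_of_eq (natDegree_C _)) ha
      exact h2
    · rw [quarticCoef_three]
      simp
  set A : ℂ := ((a.coeff 20 : ℤ) : ℂ) with hA
  set Bc : ℂ := ((b.coeff 30 : ℤ) : ℂ) with hBc
  have hlead : leadForm 4 10 (fun j => (quarticCoef a b j).map (Int.castRingHom ℂ))
      = X ^ 4 + C (18 * A) * X ^ 2 + C (108 * Bc) * X + C (-27 * A ^ 2) := by
    have h0 : ((-27 : ℤ[X]) * a ^ 2).coeff 40 = -27 * (a.coeff 20) ^ 2 := by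
      rw [show (-27 : ℤ[X]) = C (-27 : ℤ) by simp, coeff_C_mul, show 40 = 2 * 20 from rfl,
        coeff_pow_of_natDegree_le ha]
    have h1 : ((108 : ℤ[X]) * b).coeff 30 = 108 * b.coeff 30 := by
      rw [show (108 : ℤ[X]) = C (108 : ℤ) by simp, coeff_C_mul]
    have h2 : ((18 : ℤ[X]) * a).coeff 20 = 18 * a.coeff 20 := by
      rw [show (18 : ℤ[X]) = C (18 : ℤ) by simp, coeff_C_mul]
    unfold leadForm
    rw [sum_range_four]
    simp only [coeff_map, quarticCoef_zero, quarticCoef_one, quarticCoef_two, quarticCoef_three]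
    norm_num only [h0, h1, h2, coeff_zero, map_zero, zero_mul, add_zero, pow_zero, mul_one,
      pow_one, Nat.sub_zero, Nat.reduceMul, Nat.reduceSub]
    rw [hA, hBc]
    simp only [eq_intCast]
    push_cast
    ring
  have hsep : ∀ Y : ℂ,
      (leadForm 4 10 fun j => (quarticCoef a b j).map (Int.castRingHom ℂ)).eval Y = 0 →
      (derivative (leadForm 4 10 fun j => (quarticCoef a b j).map (Int.castRingHom ℂ))).eval Y
        ≠ 0 := by
    intro Y hY
    rw [hlead] at hY ⊢
    have hdiscC : 4 * A ^ 3 + 27 * Bc ^ 2 ≠ 0 := by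
      rw [hA, hBc]
      exact_mod_cast hdisc
    have hF : Y ^ 4 + 18 * A * Y ^ 2 + 108 * Bc * Y - 27 * A ^ 2 = 0 := by
      simp only [eval_add, eval_mul, eval_pow, eval_X, eval_C] at hY
      linear_combination hY
    have hG := quartic_no_double_root A Bc Y hdiscC hF
    simp only [derivative_add, derivative_mul, derivative_X_pow, derivative_C, derivative_X,
      eval_add, eval_mul, eval_pow, eval_X, eval_C, zero_mul, zero_add, mul_one, add_zero]
    intro h
    apply hG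
    push_cast at h
    linear_combination h
  have hnoroot' : ∀ Q : ℚ[X], Q.natDegree ≤ 10 →
      Q ^ 4 + ∑ j ∈ range 4, (quarticCoef a b j).map (Int.castRingHom ℚ) * Q ^ j ≠ 0 := by
    intro Q hQ h
    apply hnoroot Q hQ
    rw [sum_range_four] at h
    simp only [quarticCoef_zero, quarticCoef_one, quarticCoef_two, quarticCoef_three,
      Polynomial.map_mul, Polynomial.map_pow, Polynomial.map_neg, Polynomial.map_ofNat,
      Polynomial.map_zero] at h
    linear_combination h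
  obtain ⟨n, hnB, hnmod, hn⟩ :=
    exists_no_int_root 4 10 (quarticCoef a b) hdeg hsep hnoroot' M hM n0 B
  refine ⟨n, hnB, hnmod, fun y hy => hn y ?_⟩
  rw [sum_range_four]
  simp only [quarticCoef_zero, quarticCoef_one, quarticCoef_two, quarticCoef_three,
    eval_mul, eval_pow, eval_neg, eval_ofNat, eval_zero]
  linear_combination hy

end Fermat.Agent.S52.H58
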