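/-
S52 / Program E, E7-TOP (helper58): abstract top assembly.

The frozen S52 conclusion for an integral semistable model `W`, from a one-parameter polynomial
family of invariants `(c4f, c6f) ∈ ℤ[X]²` (the invariants of the deformed curves, in the
parameter `n`, modulus `M` fixed) and six family facts:

* degrees `≤ 20, 30` with top coefficients `c₄(W), c₆(W)`;
* `c4f(n) ≡ c₄(W)`, `c6f(n) ≡ c₆(W)` mod `M` for `n ≡ 1` mod `M` (`2^7 3^4 ∣ M`);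
* the 3-division quartic of the family has no root in `ℚ[X]`;
* `c4f(n)^3 - c6f(n)^2 ≠ 0` for `n` large;
* semistability away from `M`;
* the congruence of `a_ℓ` modulo `5` at primes `ℓ ≥ 7`.

No Klein forms appear here; the statement only uses landed pieces:
`H62.exists_model`, `H62.isSemistableModel_of`, `H2.modRepIsIrreducible_three_of_forall_int_ne`
and `H58.exists_no_int_root_quartic`.
-/
import Fermat.Agent.S52.H2.K4
import Fermat.Agent.S52.H62.Model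
import Fermat.Agent.S52.H58.HRQuartic

set_option autoImplicit false

namespace Fermat.Agent.S52.H58

open Polynomial WeierstrassCurve

theorem s52_of_family (W : WeierstrassCurve ℤ) (hΔ : W.Δ ≠ 0) (hW : W.IsSemistableModel)
    (M : ℕ) (hM : 0 < M) (hM4 : (2 ^ 7 * 3 ^ 4 : ℤ) ∣ (M : ℤ))
    (c4f c6f : ℤ[X]) (h4deg : c4f.natDegree ≤ 20) (h6deg : c6f.natDegree ≤ 30)
    (h4top : c4f.coeff 20 = W.c₄) (h6top : c6f.coeff 30 = W.c₆)
    (hcong4 : ∀ n : ℤ, n ≡ 1 [ZMOD (M : ℤ)] → (M : ℤ) ∣ c4f.eval n - W.c₄)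
    (hcong6 : ∀ n : ℤ, n ≡ 1 [ZMOD (M : ℤ)] → (M : ℤ) ∣ c6f.eval n - W.c₆)
    (hnoroot : ∀ Q : ℚ[X],
      Q ^ 4 + 18 * (-27 * c4f.map (Int.castRingHom ℚ)) * Q ^ 2
        + 108 * (-54 * c6f.map (Int.castRingHom ℚ)) * Q
        - 27 * (-27 * c4f.map (Int.castRingHom ℚ)) ^ 2 ≠ 0)
    (hdisc : ∃ B : ℤ, ∀ n : ℤ, B ≤ n → c4f.eval n ^ 3 - c6f.eval n ^ 2 ≠ 0)
    (haway : ∀ n : ℤ, n ≡ 1 [ZMOD (M : ℤ)] → ∀ p : ℕ, p.Prime → ¬ (p : ℤ) ∣ (M : ℤ) →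
      (p : ℤ) ∣ c4f.eval n ^ 3 - c6f.eval n ^ 2 → ¬ (p : ℤ) ∣ c4f.eval n)
    (hA : ∀ n : ℤ, n ≡ 1 [ZMOD (M : ℤ)] → ∀ W' : WeierstrassCurve ℤ,
      W'.c₄ = c4f.eval n → W'.c₆ = c6f.eval n → ∀ ℓ : ℕ, ℓ.Prime → 7 ≤ ℓ →
        W.IsGoodPrimeFor ℓ → W'.IsGoodPrimeFor ℓ → (5 : ℤ) ∣ W'.apOfModel ℓ - W.apOfModel ℓ) :
    ∃ W' : WeierstrassCurve ℤ, W'.Δ ≠ 0 ∧ W'.IsSemistableModel ∧ W'.ModRepIsIrreducible 3 ∧
      ∀ ℓ : ℕ, ℓ.Prime → W.IsGoodPrimeFor ℓ → W'.IsGoodPrimeFor ℓ → ℓ ≠ 5 →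
        (5 : ℤ) ∣ (W'.apOfModel ℓ - W.apOfModel ℓ) := by
  obtain ⟨B, hB⟩ := hdisc
  set a : ℤ[X] := C (-27) * c4f with ha
  set b : ℤ[X] := C (-54) * c6f with hb
  have hadeg : a.natDegree ≤ 20 := (natDegree_C_mul_le _ _).trans h4deg
  have hbdeg : b.natDegree ≤ 30 := (natDegree_C_mul_le _ _).trans h6deg
  have hacoeff : a.coeff 20 = -27 * W.c₄ := by rw [ha, coeff_C_mul, h4top]
  have hbcoeff : b.coeff 30 = -54 * W.c₆ := by rw [hb, coeff_C_mul, h6top]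
  have hrel : (1728 : ℤ) * W.Δ = W.c₄ ^ 3 - W.c₆ ^ 2 := W.c_relation
  have hdisc' : 4 * (a.coeff 20) ^ 3 + 27 * (b.coeff 30) ^ 2 ≠ 0 := by
    rw [hacoeff, hbcoeff]
    intro h
    apply hΔ
    have h1 : (-78732 * 1728 : ℤ) * W.Δ = 0 := by linear_combination h - 78732 * hrel
    rcases mul_eq_zero.mp h1 with h2 | h2
    · norm_num at h2
    · exact h2
  have hamap : a.map (Int.castRingHom ℚ) = -27 * c4f.map (Int.castRingHom ℚ) := by
    rw [ha, Polynomial.map_mul, map_C]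
    have h27 : (C ((Int.castRingHom ℚ) (-27)) : ℚ[X]) = -27 := by
      simp only [eq_intCast, Int.cast_neg, Int.cast_ofNat, C_neg, neg_inj]
      exact map_ofNat C 27
    rw [h27]
  have hbmap : b.map (Int.castRingHom ℚ) = -54 * c6f.map (Int.castRingHom ℚ) := by
    rw [hb, Polynomial.map_mul, map_C]
    have h54 : (C ((Int.castRingHom ℚ) (-54)) : ℚ[X]) = -54 := by
      simp only [eq_intCast, Int.cast_neg, Int.cast_ofNat, C_neg, neg_inj]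
      exact map_ofNat C 54
    rw [h54]
  have hnoroot' : ∀ Q : ℚ[X], Q.natDegree ≤ 10 →
      Q ^ 4 + 18 * a.map (Int.castRingHom ℚ) * Q ^ 2 + 108 * b.map (Int.castRingHom ℚ) * Q
        - 27 * (a.map (Int.castRingHom ℚ)) ^ 2 ≠ 0 := by
    intro Q _
    rw [hamap, hbmap]
    exact hnoroot Q
  obtain ⟨n, hnB, hnmod, hn⟩ :=
    exists_no_int_root_quartic a b hadeg hbdeg hdisc' hnoroot' M hM 1 B
  have haeval : a.eval n = -27 * c4f.eval n := by rw [ha, eval_mul, eval_C]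
  have hbeval : b.eval n = -54 * c6f.eval n := by rw [hb, eval_mul, eval_C]
  have h4 : (2 ^ 7 * 3 ^ 4 : ℤ) ∣ c4f.eval n - W.c₄ := hM4.trans (hcong4 n hnmod)
  have h6 : (2 ^ 6 * 3 ^ 4 : ℤ) ∣ c6f.eval n - W.c₆ := by
    have h76 : (2 ^ 6 * 3 ^ 4 : ℤ) ∣ (2 ^ 7 * 3 ^ 4 : ℤ) := ⟨2, by norm_num⟩
    exact (h76.trans hM4).trans (hcong6 n hnmod)
  obtain ⟨W', -, -, -, hc4, hc6, hr2, hr3⟩ :=
    Fermat.Agent.S52.H62.exists_model W (c4f.eval n) (c6f.eval n) h4 h6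
  have hrel' : (1728 : ℤ) * W'.Δ = c4f.eval n ^ 3 - c6f.eval n ^ 2 := by
    rw [← hc4, ← hc6]
    exact W'.c_relation
  have hΔ' : W'.Δ ≠ 0 := by
    intro h0
    apply hB n hnB
    rw [← hrel', h0, mul_zero]
  refine ⟨W', hΔ', ?_, ?_, ?_⟩
  · refine Fermat.Agent.S52.H62.isSemistableModel_of hW hr2 hr3 (M : ℤ) ?_ ?_ ?_
    · rw [hc4]
      exact hcong4 n hnmod
    · rw [hc6]
      exact hcong6 n hnmod
    · intro p hp _ _ hpM hpΔ
      rw [hc4]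
      refine haway n hnmod p hp hpM ?_
      rw [← hrel']
      exact Dvd.dvd.mul_left hpΔ _
  · refine Fermat.Agent.S52.H2.modRepIsIrreducible_three_of_forall_int_ne W' hΔ' fun y => ?_
    rw [hc4, hc6, ← haeval, ← hbeval]
    exact hn y
  · intro ℓ hℓ hg hg' hℓ5
    by_cases h2 : ℓ = 2
    · subst h2
      exact Fermat.Agent.S52.H62.five_dvd_apOfModel_sub_of_reductionMod_eq hr2
    by_cases h3 : ℓ = 3
    · subst h3
      exact Fermat.Agent.S52.H62.five_dvd_apOfModel_sub_of_reductionMod_eq hr3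
    have h7 : 7 ≤ ℓ := by
      by_contra hlt
      have hlt' : ℓ < 7 := not_le.mp hlt
      interval_cases ℓ <;> simp_all (config := { decide := true })
    exact hA n hnmod W' hc4 hc6 ℓ hℓ h7 hg hg'

end Fermat.Agent.S52.H58
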