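/-
S52 / leaf E6 (I-b), part 2 (helper58): linear Hensel lifting in `K[X]`.
Mathlib-only.  Given a polynomial `g` in `Y` with coefficients in `K[X]` and a simple root
`z` of its specialisation at `X = 0`, there are polynomials `a ∈ K[X]` of degree `≤ k` with
`a(0) = z` and `g(a) ≡ 0 mod X^(k+1)`.
-/
import Mathlib

set_option autoImplicit false

namespace Fermat.Agent.S52.H58

open Polynomial

theorem exists_hensel_approx {K : Type*} [Field K] (g : K[X][X]) (z : K)
    (hz : (g.map (evalRingHom (0 : K))).eval z = 0)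
    (hz' : (derivative (g.map (evalRingHom (0 : K)))).eval z ≠ 0) (k : ℕ) :
    ∃ a : K[X], a.natDegree ≤ k ∧ a.eval 0 = z ∧ X ^ (k + 1) ∣ g.eval a := by
  induction k with
  | zero =>
    refine ⟨C z, by simp, by simp, ?_⟩
    rw [zero_add, pow_one, X_dvd_iff, coeff_zero_eq_eval_zero]
    have h := eval_map_apply (p := g) (f := evalRingHom (0 : K)) (C z)
    simp only [coe_evalRingHom, eval_C] at h
    rw [← h, hz]
  | succ k ih =>
    obtain ⟨a, hadeg, ha0, q, hq⟩ := ih
    set D : K[X] := (derivative g).eval a with hD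
    have hD0 : D.eval 0 = (derivative (g.map (evalRingHom (0 : K)))).eval z := by
      have h := eval_map_apply (p := derivative g) (f := evalRingHom (0 : K)) a
      simp only [coe_evalRingHom] at h
      rw [hD, ← h, ha0, derivative_map]
    have hD0' : D.eval 0 ≠ 0 := by rw [hD0]; exact hz'
    set c : K := -(q.eval 0) / D.eval 0 with hc
    refine ⟨a + C c * X ^ (k + 1), ?_, ?_, ?_⟩
    · refine (natDegree_add_le _ _).trans ?_
      rw [max_le_iff]
      exact ⟨hadeg.trans (Nat.le_succ k), natDegree_C_mul_X_pow_le c (k + 1)⟩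
    · simp [ha0]
    · obtain ⟨κ, hκ⟩ := binomExpansion g a (C c * X ^ (k + 1))
      rw [hκ, hq, ← hD]
      have hfac : X ^ (k + 1) * q + D * (C c * X ^ (k + 1)) + κ * (C c * X ^ (k + 1)) ^ 2
          = X ^ (k + 1) * (q + C c * D + κ * C c ^ 2 * X ^ (k + 1)) := by ring
      rw [hfac, pow_succ (X : K[X]) (k + 1)]
      refine mul_dvd_mul_left _ ?_
      rw [X_dvd_iff, coeff_zero_eq_eval_zero]
      simp only [eval_add, eval_mul, eval_C, eval_pow, eval_X]
      rw [zero_pow (Nat.succ_ne_zero k), mul_zero, add_zero, hc]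
      field_simp
      ring

end Fermat.Agent.S52.H58
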