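/-
S52 / leaf E6 (I-b), part 3 (helper58): local analysis of the roots of `g(s, Y)` near `s = 0`.
Mathlib-only.
-/
import Fermat.Agent.S52.H58.HRHensel

set_option autoImplicit false

namespace Fermat.Agent.S52.H58

open Polynomial

/-- Evaluation of a bivariate complex polynomial is jointly continuous. -/
theorem continuous_evalEval_prod (g : ℂ[X][X]) :
    Continuous fun p : ℂ × ℂ => g.evalEval p.1 p.2 := by
  have h : (fun p : ℂ × ℂ => g.evalEval p.1 p.2) =
      fun p : ℂ × ℂ => ∑ i ∈ Finset.range (g.natDegree + 1), (g.coeff i).eval p.1 * p.2 ^ i := by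
    funext p
    rw [evalEval, eval_eq_sum_range (p := g), eval_finsetSum]
    refine Finset.sum_congr rfl fun i _ => ?_
    rw [eval_mul, eval_pow, eval_C]
  rw [h]
  refine continuous_finsetSum _ fun i _ => ?_
  exact ((g.coeff i).continuous.comp continuous_fst).mul (continuous_snd.pow i)

/-- A polynomial is bounded on the closed unit disc. -/
theorem exists_bound_eval_unitBall (p : ℂ[X]) :
    ∃ B : ℝ, 0 ≤ B ∧ ∀ s : ℂ, ‖s‖ ≤ 1 → ‖p.eval s‖ ≤ B := by
  obtain ⟨B, hB⟩ := (isCompact_closedBall (0 : ℂ) 1).exists_bound_of_continuousOn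
    p.continuous.continuousOn
  refine ⟨max B 0, le_max_right _ _, fun s hs => (hB s ?_).trans (le_max_left _ _)⟩
  simpa using hs

/-- A bivariate polynomial is bounded on the unit bidisc. -/
theorem exists_bound_evalEval_unitBall (κ : ℂ[X][X]) :
    ∃ B : ℝ, 0 ≤ B ∧ ∀ s h : ℂ, ‖s‖ ≤ 1 → ‖h‖ ≤ 1 → ‖κ.evalEval s h‖ ≤ B := by
  obtain ⟨B, hB⟩ := ((isCompact_closedBall (0 : ℂ) 1).prod
    (isCompact_closedBall (0 : ℂ) 1)).exists_bound_of_continuousOn
    (continuous_evalEval_prod κ).continuousOn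
  refine ⟨max B 0, le_max_right _ _, fun s h hs hh => (hB (s, h) ?_).trans (le_max_left _ _)⟩
  simp only [Set.mem_prod, Metric.mem_closedBall, dist_zero_right]
  exact ⟨hs, hh⟩

/-- Polynomials are continuous at `0`, in `ε`-`δ` form with a closed ball. -/
theorem exists_radius_eval_sub_le (p : ℂ[X]) {ε : ℝ} (hε : 0 < ε) :
    ∃ δ : ℝ, 0 < δ ∧ ∀ s : ℂ, ‖s‖ ≤ δ → ‖p.eval s - p.eval 0‖ ≤ ε := by
  have hc : ContinuousAt (fun s : ℂ => p.eval s) 0 := p.continuous.continuousAt
  rw [Metric.continuousAt_iff] at hc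
  obtain ⟨δ, hδ, h⟩ := hc ε hε
  refine ⟨δ / 2, by positivity, fun s hs => ?_⟩
  have : dist s 0 < δ := by
    rw [dist_zero_right]
    linarith
  have h2 := h this
  rw [dist_eq_norm] at h2
  exact h2.le

/-- Taylor expansion of `g(s, ·)` around `a(s)` with a polynomial remainder. -/
theorem exists_taylor_remainder (g : ℂ[X][X]) (a : ℂ[X]) :
    ∃ κ : ℂ[X][X], ∀ s h : ℂ,
      g.evalEval s (a.eval s + h) =
        (g.eval a).eval s + ((derivative g).eval a).eval s * h + κ.evalEval s h * h ^ 2 := by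
  obtain ⟨κ, hκ⟩ := binomExpansion (g.map (C : ℂ[X] →+* ℂ[X][X])) (C a) X
  refine ⟨κ, fun s h => ?_⟩
  have hcomp : (evalEvalRingHom s h).comp (C : ℂ[X] →+* ℂ[X][X]) = evalRingHom s := by
    refine RingHom.ext fun p => ?_
    simp
  have key : ∀ (f : ℂ[X][X]) (t : ℂ[X][X]),
      evalEvalRingHom s h ((f.map (C : ℂ[X] →+* ℂ[X][X])).eval t)
        = f.evalEval s (evalEvalRingHom s h t) := by
    intro f t
    rw [← eval_map_apply, map_map, hcomp, map_evalRingHom_eval]
  have h1 := congrArg (evalEvalRingHom s h) hκ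
  rw [key] at h1
  simp only [map_add, map_mul, map_pow] at h1
  rw [key, derivative_map, key] at h1
  simp only [coe_evalEvalRingHom, evalEval_C, evalEval_X] at h1
  rw [h1]
  have e1 : g.evalEval s (a.eval s) = (g.eval a).eval s := by
    rw [← map_evalRingHom_eval]
    have := eval_map_apply (p := g) (f := evalRingHom s) a
    simpa using this
  have e2 : (derivative g).evalEval s (a.eval s) = ((derivative g).eval a).eval s := by
    rw [← map_evalRingHom_eval]
    have := eval_map_apply (p := derivative g) (f := evalRingHom s) a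
    simpa using this
  rw [e1, e2]

end Fermat.Agent.S52.H58
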