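/-
S52 / leaf E6 (I-b), part 4 (helper58): a root `Y` of `g(s, ·)` close to `a(0)`, where `a` is a
Hensel approximation of order `k`, is within `C * ‖s‖^(k+1)` of `a(s)`.
Mathlib-only.
-/
import Fermat.Agent.S52.H58.HRLocal

set_option autoImplicit false

namespace Fermat.Agent.S52.H58

open Polynomial

theorem root_close_of_hensel (g : ℂ[X][X]) (a R : ℂ[X]) (k : ℕ)
    (hR : g.eval a = X ^ (k + 1) * R) (hD : ((derivative g).eval a).eval 0 ≠ 0) :
    ∃ C η s0 : ℝ, 0 < C ∧ 0 < η ∧ 0 < s0 ∧ ∀ s Y : ℂ, ‖s‖ ≤ s0 → ‖Y - a.eval 0‖ ≤ η →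
      g.evalEval s Y = 0 → ‖Y - a.eval s‖ ≤ C * ‖s‖ ^ (k + 1) := by
  obtain ⟨κ, hκ⟩ := exists_taylor_remainder g a
  obtain ⟨K, hK0, hK⟩ := exists_bound_evalEval_unitBall κ
  obtain ⟨Rb, hRb0, hRb⟩ := exists_bound_eval_unitBall R
  set D : ℂ[X] := (derivative g).eval a with hDdef
  set δ : ℝ := ‖D.eval 0‖ with hδdef
  have hδ : 0 < δ := norm_pos_iff.mpr hD
  set η : ℝ := min (1 / 2) (δ / (8 * (K + 1))) with hηdef
  have hη : 0 < η := lt_min (by norm_num) (by positivity)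
  have hη1 : η ≤ 1 / 2 := min_le_left _ _
  have hη2 : η ≤ δ / (8 * (K + 1)) := min_le_right _ _
  obtain ⟨s1, hs1, hD1⟩ := exists_radius_eval_sub_le D (ε := δ / 4) (by positivity)
  obtain ⟨s2, hs2, ha2⟩ := exists_radius_eval_sub_le a (ε := η) hη
  refine ⟨2 * Rb / δ + 1, η, min 1 (min s1 s2), by positivity, hη,
    lt_min one_pos (lt_min hs1 hs2), ?_⟩
  intro s Y hs hY hG
  have hs_1 : ‖s‖ ≤ 1 := hs.trans (min_le_left _ _)
  have hs_s1 : ‖s‖ ≤ s1 := hs.trans ((min_le_right _ _).trans (min_le_left _ _))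
  have hs_s2 : ‖s‖ ≤ s2 := hs.trans ((min_le_right _ _).trans (min_le_right _ _))
  set h : ℂ := Y - a.eval s with hh
  have hh2 : ‖h‖ ≤ 2 * η := by
    have e : h = (Y - a.eval 0) - (a.eval s - a.eval 0) := by rw [hh]; ring
    rw [e]
    calc ‖(Y - a.eval 0) - (a.eval s - a.eval 0)‖ ≤ ‖Y - a.eval 0‖ + ‖a.eval s - a.eval 0‖ :=
          norm_sub_le _ _
      _ ≤ η + η := add_le_add hY (ha2 s hs_s2)
      _ = 2 * η := by ring
  have hh1 : ‖h‖ ≤ 1 := by linarith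
  have hT := hκ s h
  have hY' : a.eval s + h = Y := by rw [hh]; ring
  rw [hY', hG, hR] at hT
  simp only [eval_mul, eval_pow, eval_X] at hT
  -- `0 = s^(k+1) * R(s) + D(s) * h + κ(s,h) * h^2`
  have hprod : h * (D.eval s + κ.evalEval s h * h) = -(s ^ (k + 1) * R.eval s) := by
    linear_combination -hT
  have hκh : ‖κ.evalEval s h * h‖ ≤ δ / 4 := by
    rw [norm_mul]
    have hK1 : ‖κ.evalEval s h‖ ≤ K := hK s h hs_1 hh1
    have hK1' : (0 : ℝ) < K + 1 := by linarith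
    calc ‖κ.evalEval s h‖ * ‖h‖ ≤ K * (2 * η) :=
          mul_le_mul hK1 hh2 (norm_nonneg _) hK0
      _ ≤ K * (2 * (δ / (8 * (K + 1)))) := by
          refine mul_le_mul_of_nonneg_left ?_ hK0
          linarith
      _ = (K / (K + 1)) * (δ / 4) := by
          field_simp
          ring
      _ ≤ 1 * (δ / 4) := by
          refine mul_le_mul_of_nonneg_right ?_ (by positivity)
          rw [div_le_one hK1']
          linarith
      _ = δ / 4 := one_mul _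
  have hlow : δ / 2 ≤ ‖D.eval s + κ.evalEval s h * h‖ := by
    have e : D.eval 0 = (D.eval s + κ.evalEval s h * h) - (D.eval s - D.eval 0)
        - κ.evalEval s h * h := by ring
    have h3 : δ ≤ ‖D.eval s + κ.evalEval s h * h‖ + ‖D.eval s - D.eval 0‖
        + ‖κ.evalEval s h * h‖ := by
      rw [hδdef]
      conv_lhs => rw [e]
      exact (norm_sub_le _ _).trans (add_le_add_left (norm_sub_le _ _) _)
    have h4 := hD1 s hs_s1
    linarith
  have hnorm : ‖h‖ * ‖D.eval s + κ.evalEval s h * h‖ = ‖s‖ ^ (k + 1) * ‖R.eval s‖ := by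
    rw [← norm_mul, hprod, norm_neg, norm_mul, norm_pow]
  have hRs : ‖R.eval s‖ ≤ Rb := hRb s hs_1
  have hspow : 0 ≤ ‖s‖ ^ (k + 1) := by positivity
  have h5 : ‖h‖ * (δ / 2) ≤ ‖s‖ ^ (k + 1) * Rb := by
    calc ‖h‖ * (δ / 2) ≤ ‖h‖ * ‖D.eval s + κ.evalEval s h * h‖ :=
          mul_le_mul_of_nonneg_left hlow (norm_nonneg _)
      _ = ‖s‖ ^ (k + 1) * ‖R.eval s‖ := hnorm
      _ ≤ ‖s‖ ^ (k + 1) * Rb := mul_le_mul_of_nonneg_left hRs hspow
  have h6 : ‖h‖ ≤ 2 * Rb / δ * ‖s‖ ^ (k + 1) := by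
    rw [div_mul_eq_mul_div, le_div_iff₀ hδ]
    linarith
  calc ‖h‖ ≤ 2 * Rb / δ * ‖s‖ ^ (k + 1) := h6
    _ ≤ (2 * Rb / δ + 1) * ‖s‖ ^ (k + 1) := by
        refine mul_le_mul_of_nonneg_right ?_ hspow
        linarith

end Fermat.Agent.S52.H58
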