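/-
S52 / leaf E6 (I-b), part 5 (helper58): for `s` small, every root of the monic polynomial
`g(s, ·)` is close to a root of `g(0, ·)`.
Mathlib-only.
-/
import Fermat.Agent.S52.H58.HRRoot

set_option autoImplicit false

namespace Fermat.Agent.S52.H58

open Polynomial

theorem exists_pos_le_finset {ι : Type*} (Z : Finset ι) (f : ι → ℝ) (hf : ∀ z ∈ Z, 0 < f z) :
    ∃ m : ℝ, 0 < m ∧ ∀ z ∈ Z, m ≤ f z := by
  classical
  induction Z using Finset.induction_on with
  | empty => exact ⟨1, one_pos, by simp⟩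
  | insert a Z _ ih =>
    obtain ⟨m, hm, hmZ⟩ := ih fun z hz => hf z (Finset.mem_insert_of_mem hz)
    refine ⟨min m (f a), lt_min hm (hf a (Finset.mem_insert_self a Z)), fun z hz => ?_⟩
    rcases Finset.mem_insert.mp hz with rfl | hz
    · exact min_le_right _ _
    · exact (min_le_left _ _).trans (hmZ z hz)

theorem exists_ge_finset {ι : Type*} (Z : Finset ι) (f : ι → ℝ) :
    ∃ m : ℝ, 0 < m ∧ ∀ z ∈ Z, f z ≤ m := by
  classical
  induction Z using Finset.induction_on with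
  | empty => exact ⟨1, one_pos, by simp⟩
  | insert a Z _ ih =>
    obtain ⟨m, hm, hmZ⟩ := ih
    refine ⟨max m (f a), lt_max_of_lt_left hm, fun z hz => ?_⟩
    rcases Finset.mem_insert.mp hz with rfl | hz
    · exact le_max_right _ _
    · exact (hmZ z hz).trans (le_max_left _ _)

theorem pow_card_le_multiset_prod_real (m : Multiset ℝ) {η : ℝ} (hη : 0 ≤ η)
    (h : ∀ x ∈ m, η ≤ x) : η ^ Multiset.card m ≤ m.prod := by
  induction m using Multiset.induction_on with
  | empty => simp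
  | cons a m ih =>
    rw [Multiset.card_cons, Multiset.prod_cons, pow_succ']
    have h1 : η ≤ a := h a (Multiset.mem_cons_self a m)
    have h2 : η ^ Multiset.card m ≤ m.prod := ih fun x hx => h x (Multiset.mem_cons_of_mem hx)
    exact mul_le_mul h1 h2 (by positivity) (hη.trans h1)

/-- Expansion of a monic bivariate polynomial. -/
theorem evalEval_monic_expand (g : ℂ[X][X]) (hg : g.Monic) (s Y : ℂ) :
    g.evalEval s Y = Y ^ g.natDegree
      + ∑ j ∈ Finset.range g.natDegree, (g.coeff j).eval s * Y ^ j := by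
  have h : g.evalEval s Y
      = ∑ i ∈ Finset.range (g.natDegree + 1), (g.coeff i).eval s * Y ^ i := by
    rw [evalEval, eval_eq_sum_range (p := g), eval_finsetSum]
    refine Finset.sum_congr rfl fun i _ => ?_
    rw [eval_mul, eval_pow, eval_C]
  rw [h, Finset.sum_range_succ, add_comm]
  congr 1
  have h1 : g.coeff g.natDegree = 1 := hg
  rw [h1, eval_one, one_mul]

/-- Uniform bound for the roots of `g(s, ·)`, `‖s‖ ≤ 1`. -/
theorem exists_root_bound (g : ℂ[X][X]) (hg : g.Monic) :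
    ∃ B : ℝ, 1 ≤ B ∧ ∀ s Y : ℂ, ‖s‖ ≤ 1 → g.evalEval s Y = 0 → ‖Y‖ ≤ B := by
  have hex : ∀ j : ℕ, ∃ B : ℝ, 0 ≤ B ∧ ∀ s : ℂ, ‖s‖ ≤ 1 → ‖(g.coeff j).eval s‖ ≤ B :=
    fun j => exists_bound_eval_unitBall (g.coeff j)
  choose Γ hΓ0 hΓ using hex
  set r := g.natDegree with hr
  set Γs : ℝ := ∑ j ∈ Finset.range r, Γ j with hΓs
  have hΓs0 : 0 ≤ Γs := Finset.sum_nonneg fun j _ => hΓ0 j
  refine ⟨1 + Γs, by linarith, fun s Y hs hG => ?_⟩
  rcases le_or_gt ‖Y‖ 1 with hY | hY
  · linarith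
  · rw [evalEval_monic_expand g hg] at hG
    have hYr : Y ^ r = -∑ j ∈ Finset.range r, (g.coeff j).eval s * Y ^ j := by
      linear_combination hG
    rcases Nat.eq_zero_or_pos r with hr0 | hr0
    · rw [hr0] at hYr
      simp at hYr
    · have hbound : ‖Y‖ ^ r ≤ Γs * ‖Y‖ ^ (r - 1) := by
        rw [← norm_pow, hYr, norm_neg, hΓs, Finset.sum_mul]
        refine (norm_sum_le _ _).trans (Finset.sum_le_sum fun j hj => ?_)
        rw [norm_mul, norm_pow]
        have hj' : j ≤ r - 1 := by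
          have := Finset.mem_range.mp hj
          omega
        exact mul_le_mul (hΓ j s hs) (pow_le_pow_right₀ hY.le hj') (by positivity) (hΓ0 j)
      have hpos : 0 < ‖Y‖ ^ (r - 1) := by positivity
      have hsplit : ‖Y‖ ^ r = ‖Y‖ * ‖Y‖ ^ (r - 1) := by
        rw [← pow_succ', Nat.sub_add_cancel hr0]
      rw [hsplit] at hbound
      have := le_of_mul_le_mul_right hbound hpos
      linarith

/-- For `s` small, every root of `g(s, ·)` is close to a root of `g(0, ·)`. -/
theorem exists_root_near (g : ℂ[X][X]) (hg : g.Monic) {η : ℝ} (hη : 0 < η) :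
    ∃ s0 : ℝ, 0 < s0 ∧ ∀ s Y : ℂ, ‖s‖ ≤ s0 → g.evalEval s Y = 0 →
      ∃ z ∈ (g.map (evalRingHom (0 : ℂ))).roots, ‖Y - z‖ < η := by
  obtain ⟨B, hB1, hB⟩ := exists_root_bound g hg
  set r := g.natDegree with hr
  set W : ℝ := ∑ j ∈ Finset.range r, B ^ j with hW
  have hW0 : 0 ≤ W := Finset.sum_nonneg fun j _ => by positivity
  set ε0 : ℝ := η ^ r / (2 * (W + 1)) with hε0
  have hε0pos : 0 < ε0 := by positivity
  have hex : ∀ j : ℕ, ∃ δ : ℝ, 0 < δ ∧ ∀ s : ℂ, ‖s‖ ≤ δ →
      ‖(g.coeff j).eval s - (g.coeff j).eval 0‖ ≤ ε0 :=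
    fun j => exists_radius_eval_sub_le (g.coeff j) hε0pos
  choose δ hδ0 hδ using hex
  obtain ⟨m, hm, hmle⟩ := exists_pos_le_finset (Finset.range r) δ fun j _ => hδ0 j
  refine ⟨min 1 m, lt_min one_pos hm, fun s Y hs hG => ?_⟩
  have hs1 : ‖s‖ ≤ 1 := hs.trans (min_le_left _ _)
  have hsm : ‖s‖ ≤ m := hs.trans (min_le_right _ _)
  have hYB : ‖Y‖ ≤ B := hB s Y hs1 hG
  set L : ℂ[X] := g.map (evalRingHom (0 : ℂ)) with hL
  have hLmonic : L.Monic := hg.map _
  have hLdeg : L.natDegree = r := hg.natDegree_map _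
  have hLeval : L.eval Y = g.evalEval 0 Y := map_evalRingHom_eval 0 Y g
  have hdiff : L.eval Y
      = ∑ j ∈ Finset.range r, ((g.coeff j).eval 0 - (g.coeff j).eval s) * Y ^ j := by
    have e1 := evalEval_monic_expand g hg 0 Y
    have e2 := evalEval_monic_expand g hg s Y
    rw [hG] at e2
    rw [hLeval, e1]
    simp only [sub_mul, Finset.sum_sub_distrib]
    linear_combination -e2
  have hLnorm : ‖L.eval Y‖ ≤ ε0 * W := by
    rw [hdiff, hW, Finset.mul_sum]
    refine (norm_sum_le _ _).trans (Finset.sum_le_sum fun j hj => ?_)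
    rw [norm_mul, norm_pow]
    have h1 : ‖(g.coeff j).eval 0 - (g.coeff j).eval s‖ ≤ ε0 := by
      rw [norm_sub_rev]
      exact hδ j s (hsm.trans (hmle j hj))
    exact mul_le_mul h1 (pow_le_pow_left₀ (norm_nonneg _) hYB j) (by positivity) hε0pos.le
  have hlt : ‖L.eval Y‖ < η ^ r := by
    refine lt_of_le_of_lt hLnorm ?_
    rw [hε0, div_mul_eq_mul_div, div_lt_iff₀ (by positivity)]
    have : 0 < η ^ r := by positivity
    nlinarith
  by_contra hcon
  have hcon : ∀ z ∈ L.roots, η ≤ ‖Y - z‖ := by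
    intro z hz
    by_contra hlt'
    exact hcon ⟨z, hz, not_le.mp hlt'⟩
  have hsplit : L.Splits := IsAlgClosed.splits L
  have hprod := hsplit.eval_eq_prod_roots_of_monic hLmonic Y
  have hcard : L.roots.card = r := by rw [← hsplit.natDegree_eq_card_roots, hLdeg]
  have hge : η ^ r ≤ ‖L.eval Y‖ := by
    rw [hprod, ← hcard]
    have h2 : ‖(L.roots.map (Y - ·)).prod‖ = ((L.roots.map (Y - ·)).map (‖·‖)).prod :=
      map_multiset_prod (normHom : ℂ →*₀ ℝ) _
    rw [h2, Multiset.map_map]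
    have h3 : ∀ x ∈ L.roots.map ((‖·‖) ∘ (Y - ·)), η ≤ x := by
      intro x hx
      obtain ⟨z, hz, rfl⟩ := Multiset.mem_map.mp hx
      exact hcon z hz
    have h4 := pow_card_le_multiset_prod_real _ hη.le h3
    rwa [Multiset.card_map] at h4
  linarith

end Fermat.Agent.S52.H58
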