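/-
S52 / leaf E6 (I-b), part 6 (helper58): branch polynomials.
For a monic polynomial `F(n, y) = y^r + ∑_{j<r} c_j(n) y^j` with `deg c_j ≤ d (r - j)` whose
leading form has only simple roots, there are finitely many polynomials `P` of degree `≤ d`
such that every complex root `y` of `F(n, ·)`, `n` real and large, is within `C / n` of some
`P(n)`.  Mathlib-only.
-/
import Fermat.Agent.S52.H58.HRNear

set_option autoImplicit false

namespace Fermat.Agent.S52.H58

open Polynomial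

/-- Local branches of a monic `g(s, Y)` near `s = 0` when `g(0, Y)` has only simple roots. -/
theorem exists_branches_local (g : ℂ[X][X]) (hg : g.Monic)
    (hsep : ∀ z : ℂ, (g.map (evalRingHom (0 : ℂ))).eval z = 0 →
      (derivative (g.map (evalRingHom (0 : ℂ)))).eval z ≠ 0) (k : ℕ) :
    ∃ S : Finset ℂ[X], (∀ a ∈ S, a.natDegree ≤ k) ∧ ∃ C s0 : ℝ, 0 < C ∧ 0 < s0 ∧
      ∀ s Y : ℂ, ‖s‖ ≤ s0 → g.evalEval s Y = 0 →
        ∃ a ∈ S, ‖Y - a.eval s‖ ≤ C * ‖s‖ ^ (k + 1) := by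
  classical
  set L : ℂ[X] := g.map (evalRingHom (0 : ℂ)) with hL
  have hLmonic : L.Monic := hg.map _
  have hL0 : L ≠ 0 := hLmonic.ne_zero
  have hex : ∀ z : ℂ, ∃ a : ℂ[X], ∃ C η s0 : ℝ, z ∈ L.roots →
      (a.natDegree ≤ k ∧ 0 < C ∧ 0 < η ∧ 0 < s0 ∧ ∀ s Y : ℂ, ‖s‖ ≤ s0 → ‖Y - z‖ ≤ η →
        g.evalEval s Y = 0 → ‖Y - a.eval s‖ ≤ C * ‖s‖ ^ (k + 1)) := by
    intro z
    by_cases hz : z ∈ L.roots
    · have hz0 : L.eval z = 0 := (mem_roots hL0).mp hz
      obtain ⟨a, hadeg, ha0, R, hR⟩ := exists_hensel_approx g z hz0 (hsep z hz0) k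
      have hD : ((derivative g).eval a).eval 0 ≠ 0 := by
        have h := eval_map_apply (p := derivative g) (f := evalRingHom (0 : ℂ)) a
        simp only [coe_evalRingHom] at h
        rw [← h, ha0, ← derivative_map]
        exact hsep z hz0
      obtain ⟨C, η, s0, hC, hη, hs0, hmain⟩ := root_close_of_hensel g a R k hR hD
      refine ⟨a, C, η, s0, fun _ => ⟨hadeg, hC, hη, hs0, ?_⟩⟩
      intro s Y hs hY hG
      rw [ha0] at hmain
      exact hmain s Y hs hY hG
    · exact ⟨0, 0, 0, 0, fun h => absurd h hz⟩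
  choose a C η s0 h using hex
  set Z : Finset ℂ := L.roots.toFinset with hZ
  have hmemZ : ∀ z, z ∈ Z ↔ z ∈ L.roots := fun z => Multiset.mem_toFinset
  obtain ⟨ηm, hηm, hηle⟩ := exists_pos_le_finset Z η fun z hz => (h z ((hmemZ z).mp hz)).2.2.1
  obtain ⟨sm, hsm, hsle⟩ := exists_pos_le_finset Z s0 fun z hz => (h z ((hmemZ z).mp hz)).2.2.2.1
  obtain ⟨Cm, hCm, hCle⟩ := exists_ge_finset Z C
  obtain ⟨s3, hs3, hnear⟩ := exists_root_near g hg hηm
  refine ⟨Z.image a, ?_, Cm, min sm s3, hCm, lt_min hsm hs3, ?_⟩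
  · intro a' ha'
    obtain ⟨z, hz, rfl⟩ := Finset.mem_image.mp ha'
    exact (h z ((hmemZ z).mp hz)).1
  · intro s Y hs hG
    obtain ⟨z, hz, hYz⟩ := hnear s Y (hs.trans (min_le_right _ _)) hG
    have hzZ : z ∈ Z := (hmemZ z).mpr hz
    refine ⟨a z, Finset.mem_image_of_mem a hzZ, ?_⟩
    have h1 := (h z hz).2.2.2.2 s Y ((hs.trans (min_le_left _ _)).trans (hsle z hzZ))
      (hYz.le.trans (hηle z hzZ)) hG
    refine h1.trans ?_
    exact mul_le_mul_of_nonneg_right (hCle z hzZ) (by positivity)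

/-- Evaluation of a reflected polynomial. -/
theorem eval_reflect_inv_mul_pow {K : Type*} [Field K] (N : ℕ) (f : K[X]) (hf : f.natDegree ≤ N)
    (x : K) (hx : x ≠ 0) : (reflect N f).eval x⁻¹ * x ^ N = f.eval x := by
  let _ : Invertible x := invertibleOfNonzero hx
  have h := eval₂_reflect_mul_pow (RingHom.id K) x N f hf
  rw [invOf_eq_inv] at h
  simpa [eval₂_id] using h

theorem eval_reflect_eq {K : Type*} [Field K] (N : ℕ) (f : K[X]) (hf : f.natDegree ≤ N)
    (x : K) (hx : x ≠ 0) : (reflect N f).eval x = x ^ N * f.eval x⁻¹ := by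
  have h := eval_reflect_inv_mul_pow N f hf x⁻¹ (inv_ne_zero hx)
  rw [inv_inv] at h
  rw [← h, mul_comm, mul_assoc, ← mul_pow, inv_mul_cancel₀ hx, one_pow, mul_one]

/-- The leading (weighted-homogeneous) form of `y^r + ∑_{j<r} c_j(n) y^j`. -/
noncomputable def leadForm (r d : ℕ) (c : ℕ → ℂ[X]) : ℂ[X] :=
  X ^ r + ∑ j ∈ Finset.range r, C ((c j).coeff (d * (r - j))) * X ^ j

/-- The polynomial in `(s, Y) = (1/n, y/n^d)`. -/
noncomputable def scaledPoly (r d : ℕ) (c : ℕ → ℂ[X]) : ℂ[X][X] :=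
  X ^ r + ∑ j ∈ Finset.range r, C (reflect (d * (r - j)) (c j)) * X ^ j

theorem scaledPoly_monic (r d : ℕ) (c : ℕ → ℂ[X]) : (scaledPoly r d c).Monic := by
  unfold scaledPoly
  refine monic_X_pow_add ?_
  refine lt_of_le_of_lt (degree_sum_le _ _) ?_
  refine (Finset.sup_lt_iff (WithBot.bot_lt_coe r)).mpr ?_
  intro j hj
  refine lt_of_le_of_lt (degree_C_mul_X_pow_le j _) ?_
  exact WithBot.coe_lt_coe.mpr (Finset.mem_range.mp hj)

theorem scaledPoly_map_zero (r d : ℕ) (c : ℕ → ℂ[X]) :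
    (scaledPoly r d c).map (evalRingHom (0 : ℂ)) = leadForm r d c := by
  unfold scaledPoly leadForm
  simp only [Polynomial.map_add, Polynomial.map_pow, map_X, Polynomial.map_sum,
    Polynomial.map_mul, map_C, coe_evalRingHom]
  congr 1
  refine Finset.sum_congr rfl fun j _ => ?_
  rw [← coeff_zero_eq_eval_zero, coeff_reflect, revAt_zero]

theorem scaledPoly_evalEval (r d : ℕ) (c : ℕ → ℂ[X]) (s Y : ℂ) :
    (scaledPoly r d c).evalEval s Y
      = Y ^ r + ∑ j ∈ Finset.range r, (reflect (d * (r - j)) (c j)).eval s * Y ^ j := by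
  unfold scaledPoly
  simp only [evalEval_add, evalEval_pow, evalEval_X, evalEval_finsetSum, evalEval_mul,
    evalEval_C]

/-- **Branch polynomials.** -/
theorem exists_branches (r d : ℕ) (c : ℕ → ℂ[X])
    (hdeg : ∀ j, j < r → (c j).natDegree ≤ d * (r - j))
    (hsep : ∀ Y : ℂ, (leadForm r d c).eval Y = 0 → (derivative (leadForm r d c)).eval Y ≠ 0) :
    ∃ S : Finset ℂ[X], (∀ P ∈ S, P.natDegree ≤ d) ∧ ∃ C n1 : ℝ, 0 < C ∧ 0 < n1 ∧
      ∀ (n : ℝ) (y : ℂ), n1 ≤ n →
        y ^ r + ∑ j ∈ Finset.range r, (c j).eval (n : ℂ) * y ^ j = 0 →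
          ∃ P ∈ S, ‖y - P.eval (n : ℂ)‖ ≤ C / n := by
  classical
  obtain ⟨S0, hS0, C, s0, hC, hs0, hloc⟩ := exists_branches_local (scaledPoly r d c)
    (scaledPoly_monic r d c) (by rw [scaledPoly_map_zero]; exact hsep) d
  refine ⟨S0.image (reflect d), ?_, C, s0⁻¹, hC, inv_pos.mpr hs0, ?_⟩
  · intro P hP
    obtain ⟨a, ha, rfl⟩ := Finset.mem_image.mp hP
    exact natDegree_reflect_le.trans (max_le le_rfl (hS0 a ha))
  · intro n y hn hF
    have hnpos : 0 < n := lt_of_lt_of_le (inv_pos.mpr hs0) hn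
    set x : ℂ := (n : ℂ) with hxdef
    have hx : x ≠ 0 := by
      rw [hxdef]
      exact_mod_cast hnpos.ne'
    set s : ℂ := x⁻¹ with hsdef
    have hxs : x * s = 1 := mul_inv_cancel₀ hx
    have hsnorm : ‖s‖ = n⁻¹ := by
      rw [hsdef, norm_inv, hxdef, Complex.norm_real, Real.norm_of_nonneg hnpos.le]
    have hsle : ‖s‖ ≤ s0 := by
      rw [hsnorm]
      exact inv_le_of_inv_le₀ hs0 hn
    set Y : ℂ := y * s ^ d with hYdef
    have hterm : ∀ j ∈ Finset.range r,
        (reflect (d * (r - j)) (c j)).eval s * Y ^ j = s ^ (d * r) * ((c j).eval x * y ^ j) := by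
      intro j hj
      have hjr : j < r := Finset.mem_range.mp hj
      have h1 := eval_reflect_inv_mul_pow (d * (r - j)) (c j) (hdeg j hjr) x hx
      have h2 : (reflect (d * (r - j)) (c j)).eval s = (c j).eval x * s ^ (d * (r - j)) := by
        rw [← h1, mul_assoc, ← mul_pow, hxs, one_pow, mul_one]
      have h3 : d * r = d * (r - j) + d * j := by
        rw [← Nat.mul_add, Nat.sub_add_cancel hjr.le]
      rw [h2, hYdef, mul_pow, ← pow_mul, h3, pow_add]
      ring
    have hG : (scaledPoly r d c).evalEval s Y = 0 := by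
      rw [scaledPoly_evalEval, Finset.sum_congr rfl hterm, ← Finset.mul_sum]
      have hYr : Y ^ r = s ^ (d * r) * y ^ r := by
        rw [hYdef, mul_pow, ← pow_mul]
        ring
      rw [hYr, ← mul_add, hF, mul_zero]
    obtain ⟨a, ha, hYa⟩ := hloc s Y hsle hG
    refine ⟨reflect d a, Finset.mem_image_of_mem _ ha, ?_⟩
    have hP : (reflect d a).eval x = x ^ d * a.eval s := eval_reflect_eq d a (hS0 a ha) x hx
    have hyY : y = x ^ d * Y := by
      rw [hYdef, mul_comm y, ← mul_assoc, ← mul_pow, hxs, one_pow, one_mul]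
    have hdiff : y - (reflect d a).eval x = x ^ d * (Y - a.eval s) := by
      rw [hP, hyY]
      ring
    rw [hdiff, norm_mul, norm_pow, hxdef, Complex.norm_real, Real.norm_of_nonneg hnpos.le]
    have hnd : 0 ≤ n ^ d := by positivity
    calc n ^ d * ‖Y - a.eval s‖ ≤ n ^ d * (C * ‖s‖ ^ (d + 1)) :=
          mul_le_mul_of_nonneg_left hYa hnd
      _ = C / n := by
          rw [hsnorm, inv_pow, pow_succ]
          field_simp

end Fermat.Agent.S52.H58
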