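/-
S52 / Program E (helper58): top coefficients of the Klein forms on a line, and a root bound
for nonzero integer polynomials.  Used by the concrete instantiation of `H58.s52_of_family`.
-/
import Fermat.Agent.S52.H61.FamilyNoRoot

set_option autoImplicit false

namespace Fermat.Agent.S52.H58

open Polynomial
open Fermat.Agent.S52.H93 (kf kH kT kwx kwy)
open Fermat.Agent.S52.H61 (lineX lineY)

section Top

variable {K : Type*} [Field K]

theorem coeff_pow_mul_pow_top (p q : K[X]) (hp : p.natDegree ≤ 1) (hq : q.natDegree ≤ 1)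
    (i j : ℕ) : (p ^ i * q ^ j).coeff (i + j) = p.coeff 1 ^ i * q.coeff 1 ^ j := by
  have hpi : (p ^ i).natDegree ≤ i := by
    simpa using natDegree_pow_le_of_le i hp
  have hqj : (q ^ j).natDegree ≤ j := by
    simpa using natDegree_pow_le_of_le j hq
  rw [coeff_mul_add_eq_of_natDegree_le hpi hqj]
  have h1 := coeff_pow_of_natDegree_le (m := i) hp
  have h2 := coeff_pow_of_natDegree_le (m := j) hq
  rw [mul_one] at h1 h2
  rw [h1, h2]

theorem coeff_pow_top (p : K[X]) (hp : p.natDegree ≤ 1) (i : ℕ) :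
    (p ^ i).coeff i = p.coeff 1 ^ i := by
  have h1 := coeff_pow_of_natDegree_le (m := i) hp
  rwa [mul_one] at h1

theorem natDegree_lineX_le (x0 y0 m : K) : (lineX x0 y0 m).natDegree ≤ 1 := by
  unfold lineX
  compute_degree

theorem natDegree_lineY_le (x0 y0 m : K) : (lineY x0 y0 m).natDegree ≤ 1 := by
  unfold lineY
  compute_degree

theorem coeff_one_lineX (x0 y0 m : K) : (lineX x0 y0 m).coeff 1 = x0 := by
  simp [lineX]

theorem coeff_one_lineY (x0 y0 m : K) : (lineY x0 y0 m).coeff 1 = y0 := by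
  simp [lineY]

/-- Top coefficient of `kH` on two polynomials of degree `≤ 1`. -/
theorem coeff_kH_top (p q : K[X]) (hp : p.natDegree ≤ 1) (hq : q.natDegree ≤ 1) :
    (kH p q).coeff 20 = kH (p.coeff 1) (q.coeff 1) := by
  have e1 : (p ^ 15 * q ^ 5).coeff 20 = p.coeff 1 ^ 15 * q.coeff 1 ^ 5 :=
    coeff_pow_mul_pow_top p q hp hq 15 5
  have e2 : (p ^ 5 * q ^ 15).coeff 20 = p.coeff 1 ^ 5 * q.coeff 1 ^ 15 :=
    coeff_pow_mul_pow_top p q hp hq 5 15
  have e3 : (p ^ 10 * q ^ 10).coeff 20 = p.coeff 1 ^ 10 * q.coeff 1 ^ 10 :=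
    coeff_pow_mul_pow_top p q hp hq 10 10
  have e4 : (p ^ 20).coeff 20 = p.coeff 1 ^ 20 := coeff_pow_top p hp 20
  have e5 : (q ^ 20).coeff 20 = q.coeff 1 ^ 20 := coeff_pow_top q hq 20
  simp only [kH, mul_assoc, coeff_add, coeff_sub, coeff_neg, coeff_ofNat_mul, e1, e2, e3, e4, e5]

/-- Top coefficient of `kT` on two polynomials of degree `≤ 1`. -/
theorem coeff_kT_top (p q : K[X]) (hp : p.natDegree ≤ 1) (hq : q.natDegree ≤ 1) :
    (kT p q).coeff 30 = kT (p.coeff 1) (q.coeff 1) := by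
  have e1 : (p ^ 25 * q ^ 5).coeff 30 = p.coeff 1 ^ 25 * q.coeff 1 ^ 5 :=
    coeff_pow_mul_pow_top p q hp hq 25 5
  have e2 : (p ^ 5 * q ^ 25).coeff 30 = p.coeff 1 ^ 5 * q.coeff 1 ^ 25 :=
    coeff_pow_mul_pow_top p q hp hq 5 25
  have e3 : (p ^ 20 * q ^ 10).coeff 30 = p.coeff 1 ^ 20 * q.coeff 1 ^ 10 :=
    coeff_pow_mul_pow_top p q hp hq 20 10
  have e4 : (p ^ 10 * q ^ 20).coeff 30 = p.coeff 1 ^ 10 * q.coeff 1 ^ 20 :=
    coeff_pow_mul_pow_top p q hp hq 10 20
  have e5 : (p ^ 30).coeff 30 = p.coeff 1 ^ 30 := coeff_pow_top p hp 30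
  have e6 : (q ^ 30).coeff 30 = q.coeff 1 ^ 30 := coeff_pow_top q hq 30
  simp only [kT, coeff_add, coeff_sub, coeff_ofNat_mul, e1, e2, e3, e4, e5, e6]

theorem natDegree_kH_le (p q : K[X]) (hp : p.natDegree ≤ 1) (hq : q.natDegree ≤ 1) :
    (kH p q).natDegree ≤ 20 := by
  have h : ∀ i j : ℕ, i + j ≤ 20 → (p ^ i * q ^ j).natDegree ≤ 20 := by
    intro i j hij
    have h1 : (p ^ i).natDegree ≤ i := by simpa using natDegree_pow_le_of_le i hp
    have h2 : (q ^ j).natDegree ≤ j := by simpa using natDegree_pow_le_of_le j hq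
    exact (natDegree_mul_le_of_le h1 h2).trans hij
  have hp20 : (p ^ 20).natDegree ≤ 20 := by simpa using natDegree_pow_le_of_le 20 hp
  have hq20 : (q ^ 20).natDegree ≤ 20 := by simpa using natDegree_pow_le_of_le 20 hq
  have hnum : ∀ (c : ℕ) [c.AtLeastTwo] (r : K[X]), r.natDegree ≤ 20 →
      ((OfNat.ofNat c : K[X]) * r).natDegree ≤ 20 := by
    intro c _ r hr
    refine (natDegree_mul_le).trans ?_
    rw [natDegree_ofNat, zero_add]
    exact hr
  unfold kH
  refine (natDegree_sub_le _ _).trans (max_le ?_ ?_)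
  · refine (natDegree_add_le _ _).trans (max_le ?_ ?_)
    · rw [natDegree_neg]
      exact (natDegree_add_le _ _).trans (max_le hp20 hq20)
    · refine hnum 228 _ ?_
      exact (natDegree_sub_le _ _).trans (max_le (h 15 5 le_rfl) (h 5 15 le_rfl))
  · rw [mul_assoc]
    exact hnum 494 _ (h 10 10 le_rfl)

theorem natDegree_kT_le (p q : K[X]) (hp : p.natDegree ≤ 1) (hq : q.natDegree ≤ 1) :
    (kT p q).natDegree ≤ 30 := by
  have h : ∀ i j : ℕ, i + j ≤ 30 → (p ^ i * q ^ j).natDegree ≤ 30 := by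
    intro i j hij
    have h1 : (p ^ i).natDegree ≤ i := by simpa using natDegree_pow_le_of_le i hp
    have h2 : (q ^ j).natDegree ≤ j := by simpa using natDegree_pow_le_of_le j hq
    exact (natDegree_mul_le_of_le h1 h2).trans hij
  have hp30 : (p ^ 30).natDegree ≤ 30 := by simpa using natDegree_pow_le_of_le 30 hp
  have hq30 : (q ^ 30).natDegree ≤ 30 := by simpa using natDegree_pow_le_of_le 30 hq
  have hnum : ∀ (c : ℕ) [c.AtLeastTwo] (r : K[X]), r.natDegree ≤ 30 →
      ((OfNat.ofNat c : K[X]) * r).natDegree ≤ 30 := by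
    intro c _ r hr
    refine (natDegree_mul_le).trans ?_
    rw [natDegree_ofNat, zero_add]
    exact hr
  unfold kT
  refine (natDegree_sub_le _ _).trans (max_le ?_ ?_)
  · refine (natDegree_add_le _ _).trans (max_le ?_ ?_)
    · exact (natDegree_add_le _ _).trans (max_le hp30 hq30)
    · refine hnum 522 _ ?_
      exact (natDegree_sub_le _ _).trans (max_le (h 25 5 le_rfl) (h 5 25 le_rfl))
  · refine hnum 10005 _ ?_
    exact (natDegree_add_le _ _).trans (max_le (h 20 10 le_rfl) (h 10 20 le_rfl))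

end Top

/-- A nonzero integer polynomial has no integer root beyond some bound. -/
theorem exists_bound_eval_ne_zero (P : ℤ[X]) (hP : P ≠ 0) :
    ∃ B : ℤ, ∀ n : ℤ, B ≤ n → P.eval n ≠ 0 := by
  classical
  obtain ⟨B, hB⟩ := (P.roots.toFinset).bddAbove
  refine ⟨B + 1, fun n hn h0 => ?_⟩
  have hmem : n ∈ P.roots.toFinset := by
    rw [Multiset.mem_toFinset, mem_roots hP]
    exact h0
  have := hB hmem
  omega

end Fermat.Agent.S52.H58
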