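/-
S52 / Program E (helper58): the Klein-line family plugged into `H58.s52_of_family`.

E0 interface (any implementation): universal polynomial functions `Rh, Sh` with
* naturality under ring homomorphisms,
* `Rh A B n 0 = A * n^20`, `Sh A B n 0 = B * n^30`,
* the two line identities `kH (n v + m w(v)) = Rh (kH v) (kT v) n m`, same for `kT`/`Sh`.

Output: the frozen S52 conclusion, from the E0 interface and Theorem A' (the congruence of
`a_ℓ` mod `5` for `ℓ ≥ 7`) stated for integral models with the family invariants.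
-/
import Fermat.Agent.S52.H58.TopAssembly
import Fermat.Agent.S52.H58.KleinLine
import Fermat.Agent.S52.H91.KleinPoint

set_option autoImplicit false

namespace Fermat.Agent.S52.H58

open Polynomial WeierstrassCurve
open Fermat.Agent.S52.H93 (kf kH kT kwx kwy)
open Fermat.Agent.S52.H61 (lineX lineY)

section Family

variable (Rh Sh : ∀ (R : Type) [CommRing R], R → R → R → R → R)

/-- The `c₄`-invariant of the deformed curve as a polynomial in the parameter `n`. -/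
noncomputable def c4fam (c4 c6 : ℤ) (M : ℕ) : ℤ[X] :=
  -Rh ℤ[X] (C (-c4)) (C (-c6)) X (C (M : ℤ))

/-- The `c₆`-invariant of the deformed curve as a polynomial in the parameter `n`. -/
noncomputable def c6fam (c4 c6 : ℤ) (M : ℕ) : ℤ[X] :=
  -Sh ℤ[X] (C (-c4)) (C (-c6)) X (C (M : ℤ))

variable {Rh Sh}

theorem c4fam_eval
    (hmapR : ∀ (R S : Type) [CommRing R] [CommRing S] (φ : R →+* S) (A B n m : R),
      φ (Rh R A B n m) = Rh S (φ A) (φ B) (φ n) (φ m))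
    (c4 c6 : ℤ) (M : ℕ) (n : ℤ) :
    (c4fam Rh c4 c6 M).eval n = -Rh ℤ (-c4) (-c6) n (M : ℤ) := by
  have h := hmapR ℤ[X] ℤ (evalRingHom n) (C (-c4)) (C (-c6)) X (C (M : ℤ))
  simp only [coe_evalRingHom, eval_C, eval_X] at h
  rw [c4fam, eval_neg, h]

theorem c6fam_eval
    (hmapS : ∀ (R S : Type) [CommRing R] [CommRing S] (φ : R →+* S) (A B n m : R),
      φ (Sh R A B n m) = Sh S (φ A) (φ B) (φ n) (φ m))
    (c4 c6 : ℤ) (M : ℕ) (n : ℤ) :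
    (c6fam Sh c4 c6 M).eval n = -Sh ℤ (-c4) (-c6) n (M : ℤ) := by
  have h := hmapS ℤ[X] ℤ (evalRingHom n) (C (-c4)) (C (-c6)) X (C (M : ℤ))
  simp only [coe_evalRingHom, eval_C, eval_X] at h
  rw [c6fam, eval_neg, h]

/-- The family over a field `K`: on the Klein line through a point with the right invariants. -/
theorem c4fam_map {K : Type} [Field K]
    (hmapR : ∀ (R S : Type) [CommRing R] [CommRing S] (φ : R →+* S) (A B n m : R),
      φ (Rh R A B n m) = Rh S (φ A) (φ B) (φ n) (φ m))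
    (hlineH : ∀ (R : Type) [CommRing R] (x y n m : R),
      kH (n * x + m * kwx x y) (n * y + m * kwy x y) = Rh R (kH x y) (kT x y) n m)
    (c4 c6 : ℤ) (M : ℕ) (x0 y0 : K) (hH : kH x0 y0 = -(c4 : K)) (hT : kT x0 y0 = -(c6 : K)) :
    (c4fam Rh c4 c6 M).map (Int.castRingHom K) = -kH (lineX x0 y0 (M : K)) (lineY x0 y0 (M : K)) := by
  have h : (Rh ℤ[X] (C (-c4)) (C (-c6)) X (C (M : ℤ))).map (Int.castRingHom K)
      = Rh K[X] (C (-(c4 : K))) (C (-(c6 : K))) X (C (M : K)) := by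
    have h0 := hmapR ℤ[X] K[X] (mapRingHom (Int.castRingHom K)) (C (-c4)) (C (-c6)) X
      (C (M : ℤ))
    simp only [coe_mapRingHom] at h0
    rw [h0, Polynomial.map_C, Polynomial.map_C, Polynomial.map_C, Polynomial.map_X]
    simp only [eq_intCast, Int.cast_neg, Int.cast_natCast]
  have hl := hlineH K[X] (C x0) (C y0) X (C (M : K))
  rw [← Fermat.Agent.S52.H61.map_kH C, ← Fermat.Agent.S52.H61.map_kT C,
    ← Fermat.Agent.S52.H61.map_kwx C, ← Fermat.Agent.S52.H61.map_kwy C, hH, hT] at hl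
  have hX : lineX x0 y0 (M : K) = X * C x0 + C (M : K) * C (kwx x0 y0) := by
    rw [lineX, C_mul]; ring
  have hY : lineY x0 y0 (M : K) = X * C y0 + C (M : K) * C (kwy x0 y0) := by
    rw [lineY, C_mul]; ring
  rw [c4fam, Polynomial.map_neg, h, hX, hY, hl]

theorem c6fam_map {K : Type} [Field K]
    (hmapS : ∀ (R S : Type) [CommRing R] [CommRing S] (φ : R →+* S) (A B n m : R),
      φ (Sh R A B n m) = Sh S (φ A) (φ B) (φ n) (φ m))
    (hlineT : ∀ (R : Type) [CommRing R] (x y n m : R),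
      kT (n * x + m * kwx x y) (n * y + m * kwy x y) = Sh R (kH x y) (kT x y) n m)
    (c4 c6 : ℤ) (M : ℕ) (x0 y0 : K) (hH : kH x0 y0 = -(c4 : K)) (hT : kT x0 y0 = -(c6 : K)) :
    (c6fam Sh c4 c6 M).map (Int.castRingHom K) = -kT (lineX x0 y0 (M : K)) (lineY x0 y0 (M : K)) := by
  have h : (Sh ℤ[X] (C (-c4)) (C (-c6)) X (C (M : ℤ))).map (Int.castRingHom K)
      = Sh K[X] (C (-(c4 : K))) (C (-(c6 : K))) X (C (M : K)) := by
    have h0 := hmapS ℤ[X] K[X] (mapRingHom (Int.castRingHom K)) (C (-c4)) (C (-c6)) X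
      (C (M : ℤ))
    simp only [coe_mapRingHom] at h0
    rw [h0, Polynomial.map_C, Polynomial.map_C, Polynomial.map_C, Polynomial.map_X]
    simp only [eq_intCast, Int.cast_neg, Int.cast_natCast]
  have hl := hlineT K[X] (C x0) (C y0) X (C (M : K))
  rw [← Fermat.Agent.S52.H61.map_kH C, ← Fermat.Agent.S52.H61.map_kT C,
    ← Fermat.Agent.S52.H61.map_kwx C, ← Fermat.Agent.S52.H61.map_kwy C, hH, hT] at hl
  have hX : lineX x0 y0 (M : K) = X * C x0 + C (M : K) * C (kwx x0 y0) := by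
    rw [lineX, C_mul]; ring
  have hY : lineY x0 y0 (M : K) = X * C y0 + C (M : K) * C (kwy x0 y0) := by
    rw [lineY, C_mul]; ring
  rw [c6fam, Polynomial.map_neg, h, hX, hY, hl]

/-- A Klein point over `ℂ` with invariants `(-c₄, -c₆)`. -/
theorem exists_klein_point_complex (c4 c6 Δ : ℤ) (hrel : 1728 * Δ = c4 ^ 3 - c6 ^ 2)
    (hΔ : Δ ≠ 0) :
    ∃ x0 y0 : ℂ, kH x0 y0 = -(c4 : ℂ) ∧ kT x0 y0 = -(c6 : ℂ) ∧ kf x0 y0 ≠ 0 := by
  have hAB : (-(c4 : ℂ)) ^ 3 + (-(c6 : ℂ)) ^ 2 ≠ 0 := by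
    have h1 : (-(c4 : ℂ)) ^ 3 + (-(c6 : ℂ)) ^ 2 = -(1728 * (Δ : ℂ)) := by
      have := congrArg (Int.cast : ℤ → ℂ) hrel
      push_cast at this
      linear_combination this
    rw [h1, neg_ne_zero]
    exact mul_ne_zero (by norm_num) (by exact_mod_cast hΔ)
  obtain ⟨x, y, h1, h2, h3⟩ := Fermat.Agent.S52.H91.exists_klein_point_explicit
    (k := ℂ) (by norm_num) (by norm_num) (by norm_num) (-(c4 : ℂ)) (-(c6 : ℂ)) hAB
  exact ⟨x, y, h1, h2, h3⟩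

theorem c4fam_natDegree_le
    (hmapR : ∀ (R S : Type) [CommRing R] [CommRing S] (φ : R →+* S) (A B n m : R),
      φ (Rh R A B n m) = Rh S (φ A) (φ B) (φ n) (φ m))
    (hlineH : ∀ (R : Type) [CommRing R] (x y n m : R),
      kH (n * x + m * kwx x y) (n * y + m * kwy x y) = Rh R (kH x y) (kT x y) n m)
    (c4 c6 : ℤ) (M : ℕ) (x0 y0 : ℂ) (hH : kH x0 y0 = -(c4 : ℂ)) (hT : kT x0 y0 = -(c6 : ℂ)) :
    (c4fam Rh c4 c6 M).natDegree ≤ 20 ∧ (c4fam Rh c4 c6 M).coeff 20 = c4 := by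
  have hmap := c4fam_map hmapR hlineH c4 c6 M x0 y0 hH hT
  have hinj : Function.Injective (Int.castRingHom ℂ) := Int.cast_injective
  constructor
  · rw [← natDegree_map_eq_of_injective hinj, hmap, natDegree_neg]
    exact natDegree_kH_le _ _ (natDegree_lineX_le _ _ _) (natDegree_lineY_le _ _ _)
  · apply hinj
    rw [← coeff_map, hmap, coeff_neg,
      coeff_kH_top _ _ (natDegree_lineX_le _ _ _) (natDegree_lineY_le _ _ _),
      coeff_one_lineX, coeff_one_lineY, hH, neg_neg, eq_intCast]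

theorem c6fam_natDegree_le
    (hmapS : ∀ (R S : Type) [CommRing R] [CommRing S] (φ : R →+* S) (A B n m : R),
      φ (Sh R A B n m) = Sh S (φ A) (φ B) (φ n) (φ m))
    (hlineT : ∀ (R : Type) [CommRing R] (x y n m : R),
      kT (n * x + m * kwx x y) (n * y + m * kwy x y) = Sh R (kH x y) (kT x y) n m)
    (c4 c6 : ℤ) (M : ℕ) (x0 y0 : ℂ) (hH : kH x0 y0 = -(c4 : ℂ)) (hT : kT x0 y0 = -(c6 : ℂ)) :
    (c6fam Sh c4 c6 M).natDegree ≤ 30 ∧ (c6fam Sh c4 c6 M).coeff 30 = c6 := by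
  have hmap := c6fam_map hmapS hlineT c4 c6 M x0 y0 hH hT
  have hinj : Function.Injective (Int.castRingHom ℂ) := Int.cast_injective
  constructor
  · rw [← natDegree_map_eq_of_injective hinj, hmap, natDegree_neg]
    exact natDegree_kT_le _ _ (natDegree_lineX_le _ _ _) (natDegree_lineY_le _ _ _)
  · apply hinj
    rw [← coeff_map, hmap, coeff_neg,
      coeff_kT_top _ _ (natDegree_lineX_le _ _ _) (natDegree_lineY_le _ _ _),
      coeff_one_lineX, coeff_one_lineY, hT, neg_neg, eq_intCast]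

theorem c4fam_cong
    (hmapR : ∀ (R S : Type) [CommRing R] [CommRing S] (φ : R →+* S) (A B n m : R),
      φ (Rh R A B n m) = Rh S (φ A) (φ B) (φ n) (φ m))
    (hR0 : ∀ (R : Type) [CommRing R] (A B n : R), Rh R A B n 0 = A * n ^ 20)
    (c4 c6 : ℤ) (M : ℕ) (n : ℤ) (hn : n ≡ 1 [ZMOD (M : ℤ)]) :
    (M : ℤ) ∣ (c4fam Rh c4 c6 M).eval n - c4 := by
  rw [c4fam_eval hmapR, ← ZMod.intCast_eq_intCast_iff_dvd_sub]
  have h := hmapR ℤ (ZMod M) (Int.castRingHom (ZMod M)) (-c4) (-c6) n (M : ℤ)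
  have hn1 : ((n : ℤ) : ZMod M) = 1 := by
    have := (ZMod.intCast_eq_intCast_iff n 1 M).mpr hn
    simpa using this
  have hM0 : (((M : ℕ) : ℤ) : ZMod M) = 0 := by
    rw [Int.cast_natCast]
    exact ZMod.natCast_self M
  simp only [eq_intCast] at h
  rw [Int.cast_neg, h, hM0, hR0, hn1]
  push_cast
  ring

theorem c6fam_cong
    (hmapS : ∀ (R S : Type) [CommRing R] [CommRing S] (φ : R →+* S) (A B n m : R),
      φ (Sh R A B n m) = Sh S (φ A) (φ B) (φ n) (φ m))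
    (hS0 : ∀ (R : Type) [CommRing R] (A B n : R), Sh R A B n 0 = B * n ^ 30)
    (c4 c6 : ℤ) (M : ℕ) (n : ℤ) (hn : n ≡ 1 [ZMOD (M : ℤ)]) :
    (M : ℤ) ∣ (c6fam Sh c4 c6 M).eval n - c6 := by
  rw [c6fam_eval hmapS, ← ZMod.intCast_eq_intCast_iff_dvd_sub]
  have h := hmapS ℤ (ZMod M) (Int.castRingHom (ZMod M)) (-c4) (-c6) n (M : ℤ)
  have hn1 : ((n : ℤ) : ZMod M) = 1 := by
    have := (ZMod.intCast_eq_intCast_iff n 1 M).mpr hn
    simpa using this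
  have hM0 : (((M : ℕ) : ℤ) : ZMod M) = 0 := by
    rw [Int.cast_natCast]
    exact ZMod.natCast_self M
  simp only [eq_intCast] at h
  rw [Int.cast_neg, h, hM0, hS0, hn1]
  push_cast
  ring

theorem family_no_poly_root
    (hmapR : ∀ (R S : Type) [CommRing R] [CommRing S] (φ : R →+* S) (A B n m : R),
      φ (Rh R A B n m) = Rh S (φ A) (φ B) (φ n) (φ m))
    (hmapS : ∀ (R S : Type) [CommRing R] [CommRing S] (φ : R →+* S) (A B n m : R),
      φ (Sh R A B n m) = Sh S (φ A) (φ B) (φ n) (φ m))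
    (hlineH : ∀ (R : Type) [CommRing R] (x y n m : R),
      kH (n * x + m * kwx x y) (n * y + m * kwy x y) = Rh R (kH x y) (kT x y) n m)
    (hlineT : ∀ (R : Type) [CommRing R] (x y n m : R),
      kT (n * x + m * kwx x y) (n * y + m * kwy x y) = Sh R (kH x y) (kT x y) n m)
    (c4 c6 : ℤ) (M : ℕ) (hM : 0 < M) (x0 y0 : ℂ) (hH : kH x0 y0 = -(c4 : ℂ))
    (hT : kT x0 y0 = -(c6 : ℂ)) (hf : kf x0 y0 ≠ 0) (Q : ℚ[X]) :
    Q ^ 4 + 18 * (-27 * (c4fam Rh c4 c6 M).map (Int.castRingHom ℚ)) * Q ^ 2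
      + 108 * (-54 * (c6fam Sh c4 c6 M).map (Int.castRingHom ℚ)) * Q
      - 27 * (-27 * (c4fam Rh c4 c6 M).map (Int.castRingHom ℚ)) ^ 2 ≠ 0 := by
  have hcomp : (algebraMap ℚ ℂ).comp (Int.castRingHom ℚ) = Int.castRingHom ℂ :=
    RingHom.ext_int _ _
  have hM' : ((M : ℕ) : ℂ) ≠ 0 := by exact_mod_cast hM.ne'
  refine Fermat.Agent.S52.H61.family_no_root_of_map (algebraMap ℚ ℂ) _ _ x0 y0 (M : ℂ) hf hM'
    ?_ ?_ Q
  · rw [Polynomial.map_mul, Polynomial.map_neg, Polynomial.map_ofNat, Polynomial.map_map, hcomp,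
      c4fam_map hmapR hlineH c4 c6 M x0 y0 hH hT]
    ring
  · rw [Polynomial.map_mul, Polynomial.map_neg, Polynomial.map_ofNat, Polynomial.map_map, hcomp,
      c6fam_map hmapS hlineT c4 c6 M x0 y0 hH hT]
    ring

theorem family_disc_ne_zero
    (hmapR : ∀ (R S : Type) [CommRing R] [CommRing S] (φ : R →+* S) (A B n m : R),
      φ (Rh R A B n m) = Rh S (φ A) (φ B) (φ n) (φ m))
    (hmapS : ∀ (R S : Type) [CommRing R] [CommRing S] (φ : R →+* S) (A B n m : R),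
      φ (Sh R A B n m) = Sh S (φ A) (φ B) (φ n) (φ m))
    (hlineH : ∀ (R : Type) [CommRing R] (x y n m : R),
      kH (n * x + m * kwx x y) (n * y + m * kwy x y) = Rh R (kH x y) (kT x y) n m)
    (hlineT : ∀ (R : Type) [CommRing R] (x y n m : R),
      kT (n * x + m * kwx x y) (n * y + m * kwy x y) = Sh R (kH x y) (kT x y) n m)
    (c4 c6 : ℤ) (M : ℕ) (x0 y0 : ℂ) (hH : kH x0 y0 = -(c4 : ℂ))
    (hT : kT x0 y0 = -(c6 : ℂ)) (hf : kf x0 y0 ≠ 0) :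
    ∃ B : ℤ, ∀ n : ℤ, B ≤ n →
      (c4fam Rh c4 c6 M).eval n ^ 3 - (c6fam Sh c4 c6 M).eval n ^ 2 ≠ 0 := by
  set P : ℤ[X] := c4fam Rh c4 c6 M ^ 3 - c6fam Sh c4 c6 M ^ 2 with hP
  have hP0 : P ≠ 0 := by
    intro h0
    have h1 : P.map (Int.castRingHom ℂ) = 0 := by rw [h0, Polynomial.map_zero]
    rw [hP, Polynomial.map_sub, Polynomial.map_pow, Polynomial.map_pow,
      c4fam_map hmapR hlineH c4 c6 M x0 y0 hH hT, c6fam_map hmapS hlineT c4 c6 M x0 y0 hH hT] at h1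
    have hsyz := Fermat.Agent.S52.H93.kT_sq_add_kH_cube (lineX x0 y0 (M : ℂ)) (lineY x0 y0 (M : ℂ))
    have h2 : (1728 : ℂ[X]) * kf (lineX x0 y0 (M : ℂ)) (lineY x0 y0 (M : ℂ)) ^ 5 = 0 := by
      linear_combination -h1 - hsyz
    have hdeg := Fermat.Agent.S52.H61.natDegree_kf_line x0 y0 (M : ℂ) hf
    have hkf0 : kf (lineX x0 y0 (M : ℂ)) (lineY x0 y0 (M : ℂ)) ≠ 0 := by
      intro h
      rw [h, natDegree_zero] at hdeg
      norm_num at hdeg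
    have h1728 : (1728 : ℂ[X]) ≠ 0 := by
      have : (1728 : ℂ[X]) = C (1728 : ℂ) := (map_ofNat C 1728).symm
      rw [this]
      exact C_ne_zero.mpr (by norm_num)
    exact (mul_ne_zero h1728 (pow_ne_zero 5 hkf0)) h2
  obtain ⟨B, hB⟩ := exists_bound_eval_ne_zero P hP0
  refine ⟨B, fun n hn => ?_⟩
  have := hB n hn
  rwa [hP, eval_sub, eval_pow, eval_pow] at this

theorem not_prime_dvd_1728 {p : ℕ} (hp : p.Prime) (hp2 : p ≠ 2) (hp3 : p ≠ 3) :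
    ¬ (p : ℤ) ∣ 1728 := by
  intro h
  have h' : p ∣ 1728 := by exact_mod_cast h
  have h1728 : (1728 : ℕ) = 2 ^ 6 * 3 ^ 3 := by norm_num
  rw [h1728] at h'
  rcases (Nat.Prime.dvd_mul hp).mp h' with h2 | h3
  · exact hp2 ((Nat.prime_dvd_prime_iff_eq hp Nat.prime_two).mp (hp.dvd_of_dvd_pow h2))
  · exact hp3 ((Nat.prime_dvd_prime_iff_eq hp Nat.prime_three).mp (hp.dvd_of_dvd_pow h3))

theorem family_away
    (hmapR : ∀ (R S : Type) [CommRing R] [CommRing S] (φ : R →+* S) (A B n m : R),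
      φ (Rh R A B n m) = Rh S (φ A) (φ B) (φ n) (φ m))
    (hmapS : ∀ (R S : Type) [CommRing R] [CommRing S] (φ : R →+* S) (A B n m : R),
      φ (Sh R A B n m) = Sh S (φ A) (φ B) (φ n) (φ m))
    (hR0 : ∀ (R : Type) [CommRing R] (A B n : R), Rh R A B n 0 = A * n ^ 20)
    (hS0 : ∀ (R : Type) [CommRing R] (A B n : R), Sh R A B n 0 = B * n ^ 30)
    (hlineH : ∀ (R : Type) [CommRing R] (x y n m : R),
      kH (n * x + m * kwx x y) (n * y + m * kwy x y) = Rh R (kH x y) (kT x y) n m)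
    (hlineT : ∀ (R : Type) [CommRing R] (x y n m : R),
      kT (n * x + m * kwx x y) (n * y + m * kwy x y) = Sh R (kH x y) (kT x y) n m)
    (W : WeierstrassCurve ℤ) (M : ℕ) (hM4 : (2 ^ 7 * 3 ^ 4 : ℤ) ∣ (M : ℤ))
    (hM5 : (5 : ℤ) ∣ (M : ℤ))
    (hMΔ : ∀ p : ℕ, p.Prime → (p : ℤ) ∣ W.Δ → (p : ℤ) ∣ (M : ℤ))
    (n : ℤ) (hn : n ≡ 1 [ZMOD (M : ℤ)]) (p : ℕ) (hp : p.Prime) (hpM : ¬ (p : ℤ) ∣ (M : ℤ))
    (hpdisc : (p : ℤ) ∣ (c4fam Rh W.c₄ W.c₆ M).eval n ^ 3 - (c6fam Sh W.c₄ W.c₆ M).eval n ^ 2) :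
    ¬ (p : ℤ) ∣ (c4fam Rh W.c₄ W.c₆ M).eval n := by
  have : Fact p.Prime := ⟨hp⟩
  have hp2 : p ≠ 2 := by
    rintro rfl
    exact hpM (dvd_trans ⟨2 ^ 6 * 3 ^ 4, by norm_num⟩ hM4)
  have hp3 : p ≠ 3 := by
    rintro rfl
    exact hpM (dvd_trans ⟨2 ^ 7 * 3 ^ 3, by norm_num⟩ hM4)
  have hp5 : p ≠ 5 := by
    rintro rfl
    exact hpM (by exact_mod_cast hM5)
  have hpΔ : ¬ (p : ℤ) ∣ W.Δ := fun h => hpM (hMΔ p hp h)
  have h76 : (2 ^ 6 * 3 ^ 4 : ℤ) ∣ (2 ^ 7 * 3 ^ 4 : ℤ) := ⟨2, by norm_num⟩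
  obtain ⟨W', -, -, -, hc4, hc6, -, -⟩ :=
    Fermat.Agent.S52.H62.exists_model W ((c4fam Rh W.c₄ W.c₆ M).eval n)
      ((c6fam Sh W.c₄ W.c₆ M).eval n) (hM4.trans (c4fam_cong hmapR hR0 W.c₄ W.c₆ M n hn))
      ((h76.trans hM4).trans (c6fam_cong hmapS hS0 W.c₄ W.c₆ M n hn))
  have hrel' : (1728 : ℤ) * W'.Δ
      = (c4fam Rh W.c₄ W.c₆ M).eval n ^ 3 - (c6fam Sh W.c₄ W.c₆ M).eval n ^ 2 := by
    rw [← hc4, ← hc6]
    exact W'.c_relation
  have hpZ : Prime (p : ℤ) := Nat.prime_iff_prime_int.mp hp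
  have hpΔ' : (p : ℤ) ∣ W'.Δ := by
    have h1 : (p : ℤ) ∣ 1728 * W'.Δ := by rw [hrel']; exact hpdisc
    rcases hpZ.dvd_or_dvd h1 with h | h
    · exact absurd h (not_prime_dvd_1728 hp hp2 hp3)
    · exact h
  -- a Klein point over the algebraic closure of `𝔽_p`
  have hq : ∀ q : ℕ, q.Prime → q ≠ p → ((q : ℕ) : AlgebraicClosure (ZMod p)) ≠ 0 := by
    intro q hqp hne h
    rw [CharP.cast_eq_zero_iff (AlgebraicClosure (ZMod p)) p q] at h
    exact hne ((Nat.prime_dvd_prime_iff_eq hp hqp).mp h).symm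
  have h2 : (2 : AlgebraicClosure (ZMod p)) ≠ 0 := by
    simpa using hq 2 Nat.prime_two (Ne.symm hp2)
  have h3 : (3 : AlgebraicClosure (ZMod p)) ≠ 0 := by
    simpa using hq 3 Nat.prime_three (Ne.symm hp3)
  have h5 : (5 : AlgebraicClosure (ZMod p)) ≠ 0 := by
    simpa using hq 5 Nat.prime_five (Ne.symm hp5)
  have hAB : (-(W.c₄ : AlgebraicClosure (ZMod p))) ^ 3 + (-(W.c₆ : AlgebraicClosure (ZMod p))) ^ 2
      ≠ 0 := by
    have h1 : (-(W.c₄ : AlgebraicClosure (ZMod p))) ^ 3 + (-(W.c₆ : AlgebraicClosure (ZMod p))) ^ 2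
        = -(((1728 * W.Δ : ℤ)) : AlgebraicClosure (ZMod p)) := by
      rw [W.c_relation]
      push_cast
      ring
    rw [h1, neg_ne_zero, Ne, CharP.intCast_eq_zero_iff (AlgebraicClosure (ZMod p)) p]
    intro h
    rcases hpZ.dvd_or_dvd h with h | h
    · exact not_prime_dvd_1728 hp hp2 hp3 h
    · exact hpΔ h
  obtain ⟨x₀, y₀, hH₀, hT₀, -⟩ := Fermat.Agent.S52.H91.exists_klein_point_explicit
    (k := AlgebraicClosure (ZMod p)) h2 h3 h5 _ _ hAB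
  have hH₀' : kH x₀ y₀ = -(W.c₄ : AlgebraicClosure (ZMod p)) := hH₀
  have hT₀' : kT x₀ y₀ = -(W.c₆ : AlgebraicClosure (ZMod p)) := hT₀
  have hC₄ : (((c4fam Rh W.c₄ W.c₆ M).eval n : ℤ) : AlgebraicClosure (ZMod p))
      = -kH ((n : AlgebraicClosure (ZMod p)) * x₀ + (((M : ℕ) : ℤ) : AlgebraicClosure (ZMod p))
            * kwx x₀ y₀)
          ((n : AlgebraicClosure (ZMod p)) * y₀ + (((M : ℕ) : ℤ) : AlgebraicClosure (ZMod p))
            * kwy x₀ y₀) := by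
    have h := hmapR ℤ (AlgebraicClosure (ZMod p)) (Int.castRingHom _) (-W.c₄) (-W.c₆) n (M : ℤ)
    simp only [eq_intCast] at h
    rw [c4fam_eval hmapR, Int.cast_neg, h, hlineH, hH₀', hT₀', Int.cast_neg, Int.cast_neg]
  have hC₆ : (((c6fam Sh W.c₄ W.c₆ M).eval n : ℤ) : AlgebraicClosure (ZMod p))
      = -kT ((n : AlgebraicClosure (ZMod p)) * x₀ + (((M : ℕ) : ℤ) : AlgebraicClosure (ZMod p))
            * kwx x₀ y₀)
          ((n : AlgebraicClosure (ZMod p)) * y₀ + (((M : ℕ) : ℤ) : AlgebraicClosure (ZMod p))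
            * kwy x₀ y₀) := by
    have h := hmapS ℤ (AlgebraicClosure (ZMod p)) (Int.castRingHom _) (-W.c₄) (-W.c₆) n (M : ℤ)
    simp only [eq_intCast] at h
    rw [c6fam_eval hmapS, Int.cast_neg, h, hlineT, hH₀', hT₀', Int.cast_neg, Int.cast_neg]
  exact Fermat.Agent.S52.H93.not_dvd_c4_of_dvd_disc hp2 hp3 hp5 hH₀' hT₀' W.c_relation hpΔ hpM
    hC₄ hC₆ hrel' hpΔ'

/-- **S52 from the E0 interface and Theorem A'.** -/
theorem s52_of_klein
    (hmapR : ∀ (R S : Type) [CommRing R] [CommRing S] (φ : R →+* S) (A B n m : R),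
      φ (Rh R A B n m) = Rh S (φ A) (φ B) (φ n) (φ m))
    (hmapS : ∀ (R S : Type) [CommRing R] [CommRing S] (φ : R →+* S) (A B n m : R),
      φ (Sh R A B n m) = Sh S (φ A) (φ B) (φ n) (φ m))
    (hR0 : ∀ (R : Type) [CommRing R] (A B n : R), Rh R A B n 0 = A * n ^ 20)
    (hS0 : ∀ (R : Type) [CommRing R] (A B n : R), Sh R A B n 0 = B * n ^ 30)
    (hlineH : ∀ (R : Type) [CommRing R] (x y n m : R),
      kH (n * x + m * kwx x y) (n * y + m * kwy x y) = Rh R (kH x y) (kT x y) n m)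
    (hlineT : ∀ (R : Type) [CommRing R] (x y n m : R),
      kT (n * x + m * kwx x y) (n * y + m * kwy x y) = Sh R (kH x y) (kT x y) n m)
    (W : WeierstrassCurve ℤ) (hΔ : W.Δ ≠ 0) (hW : W.IsSemistableModel)
    (M : ℕ) (hM : 0 < M) (hM4 : (2 ^ 7 * 3 ^ 4 : ℤ) ∣ (M : ℤ)) (hM5 : (5 : ℤ) ∣ (M : ℤ))
    (hMΔ : ∀ p : ℕ, p.Prime → (p : ℤ) ∣ W.Δ → (p : ℤ) ∣ (M : ℤ))
    (hA : ∀ n : ℤ, n ≡ 1 [ZMOD (M : ℤ)] → ∀ W' : WeierstrassCurve ℤ,
      W'.c₄ = -Rh ℤ (-W.c₄) (-W.c₆) n (M : ℤ) → W'.c₆ = -Sh ℤ (-W.c₄) (-W.c₆) n (M : ℤ) →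
        ∀ ℓ : ℕ, ℓ.Prime → 7 ≤ ℓ → W.IsGoodPrimeFor ℓ → W'.IsGoodPrimeFor ℓ →
          (5 : ℤ) ∣ W'.apOfModel ℓ - W.apOfModel ℓ) :
    ∃ W' : WeierstrassCurve ℤ, W'.Δ ≠ 0 ∧ W'.IsSemistableModel ∧ W'.ModRepIsIrreducible 3 ∧
      ∀ ℓ : ℕ, ℓ.Prime → W.IsGoodPrimeFor ℓ → W'.IsGoodPrimeFor ℓ → ℓ ≠ 5 →
        (5 : ℤ) ∣ (W'.apOfModel ℓ - W.apOfModel ℓ) := by
  obtain ⟨x0, y0, hH, hT, hf⟩ := exists_klein_point_complex W.c₄ W.c₆ W.Δ W.c_relation hΔ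
  obtain ⟨h4d, h4t⟩ := c4fam_natDegree_le hmapR hlineH W.c₄ W.c₆ M x0 y0 hH hT
  obtain ⟨h6d, h6t⟩ := c6fam_natDegree_le hmapS hlineT W.c₄ W.c₆ M x0 y0 hH hT
  refine s52_of_family W hΔ hW M hM hM4 (c4fam Rh W.c₄ W.c₆ M) (c6fam Sh W.c₄ W.c₆ M) h4d h6d
    h4t h6t (c4fam_cong hmapR hR0 W.c₄ W.c₆ M) (c6fam_cong hmapS hS0 W.c₄ W.c₆ M)
    (family_no_poly_root hmapR hmapS hlineH hlineT W.c₄ W.c₆ M hM x0 y0 hH hT hf)
    (family_disc_ne_zero hmapR hmapS hlineH hlineT W.c₄ W.c₆ M x0 y0 hH hT hf)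
    (family_away hmapR hmapS hR0 hS0 hlineH hlineT W M hM4 hM5 hMΔ) ?_
  intro n hn W' h4 h6
  exact hA n hn W' (by rw [h4, c4fam_eval hmapR]) (by rw [h6, c6fam_eval hmapS])

end Family

/-- A modulus that works for every `W` with `Δ ≠ 0`. -/
def kleinModulus (W : WeierstrassCurve ℤ) : ℕ := 2 ^ 7 * 3 ^ 4 * 5 * W.Δ.natAbs

theorem kleinModulus_pos (W : WeierstrassCurve ℤ) (hΔ : W.Δ ≠ 0) : 0 < kleinModulus W := by
  unfold kleinModulus
  have : 0 < W.Δ.natAbs := Int.natAbs_pos.mpr hΔ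
  positivity

theorem kleinModulus_dvd4 (W : WeierstrassCurve ℤ) :
    (2 ^ 7 * 3 ^ 4 : ℤ) ∣ ((kleinModulus W : ℕ) : ℤ) := by
  unfold kleinModulus
  push_cast
  exact ⟨5 * |W.Δ|, by ring⟩

theorem kleinModulus_dvd5 (W : WeierstrassCurve ℤ) : (5 : ℤ) ∣ ((kleinModulus W : ℕ) : ℤ) := by
  unfold kleinModulus
  push_cast
  exact ⟨2 ^ 7 * 3 ^ 4 * |W.Δ|, by ring⟩

theorem kleinModulus_dvdΔ (W : WeierstrassCurve ℤ) (p : ℕ) (h : (p : ℤ) ∣ W.Δ) :
    (p : ℤ) ∣ ((kleinModulus W : ℕ) : ℤ) := by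
  unfold kleinModulus
  push_cast
  exact Dvd.dvd.mul_left ((dvd_abs _ _).mpr h) _

end Fermat.Agent.S52.H58
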